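import Mathlib
import Fermat.Prelude.Def_FLTPrelim_Ramification

set_option autoImplicit false

namespace Fermat.Agent.S05

variable {K L : Type*} [Field K] [Field L] [Algebra K L]

theorem valuation_sub_lt_one_of_mem_inertia (A : ValuationSubring L) {σ : L ≃ₐ[K] L}
    (hσ : σ ∈ A.inertiaSubgroupIn K) {a : L} (ha : A.valuation a ≤ 1) :
    A.valuation (σ a - a) < 1 := by
  obtain ⟨g, hg, rfl⟩ := hσ
  have ha' : a ∈ A := (A.valuation_le_one_iff a).mp ha
  have h1 : ∀ r : IsLocalRing.ResidueField A, g • r = r := by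
    intro r
    have := congrArg (fun f => f r) (MonoidHom.mem_ker.mp hg)
    simpa using this
  have h2 := h1 (IsLocalRing.residue A ⟨a, ha'⟩)
  rw [← IsLocalRing.ResidueField.residue_smul, ← sub_eq_zero, ← map_sub,
    IsLocalRing.residue_eq_zero_iff, ValuationSubring.valuation_lt_one_iff] at h2
  exact h2

end Fermat.Agent.S05
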