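import Mathlib

set_option autoImplicit false

namespace Fermat.Agent.S05

variable {K : Type*} [Field K] {Γ₀ : Type*} [LinearOrderedCommGroupWithZero Γ₀]
  {v : Valuation K Γ₀} {a b : K}

theorem i_add (ha : v a ≤ 1) (hb : v b ≤ 1) : v (a + b) ≤ 1 := v.map_add_le ha hb
theorem i_sub (ha : v a ≤ 1) (hb : v b ≤ 1) : v (a - b) ≤ 1 := v.map_sub_le ha hb
theorem i_neg (ha : v a ≤ 1) : v (-a) ≤ 1 := by rwa [Valuation.map_neg]
theorem i_mul (ha : v a ≤ 1) (hb : v b ≤ 1) : v (a * b) ≤ 1 := by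
  rw [map_mul]; exact mul_le_one' ha hb
theorem i_pow (ha : v a ≤ 1) (n : ℕ) : v (a ^ n) ≤ 1 := by
  rw [map_pow]; exact pow_le_one' ha n
theorem i_one : v (1 : K) ≤ 1 := (map_one v).le
theorem i_zero : v (0 : K) ≤ 1 := by rw [map_zero]; exact zero_le_one
theorem i_of_s (ha : v a < 1) : v a ≤ 1 := ha.le
theorem i_of_u (ha : v a = 1) : v a ≤ 1 := ha.le
theorem i_natCast (n : ℕ) : v (n : K) ≤ 1 := by
  induction n with
  | zero => simp
  | succ n ih => rw [Nat.cast_succ]; exact i_add ih i_one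
theorem i_ofNat (n : ℕ) [n.AtLeastTwo] : v (OfNat.ofNat n : K) ≤ 1 := by
  rw [← Nat.cast_ofNat]; exact i_natCast n

theorem s_add (ha : v a < 1) (hb : v b < 1) : v (a + b) < 1 := v.map_add_lt ha hb
theorem s_sub (ha : v a < 1) (hb : v b < 1) : v (a - b) < 1 := v.map_sub_lt ha hb
theorem s_neg (ha : v a < 1) : v (-a) < 1 := by rwa [Valuation.map_neg]
theorem s_mul_i (ha : v a < 1) (hb : v b ≤ 1) : v (a * b) < 1 := by
  rw [map_mul]; exact mul_lt_one_of_nonneg_of_lt_one_left zero_le ha hb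
theorem i_mul_s (ha : v a ≤ 1) (hb : v b < 1) : v (a * b) < 1 := by
  rw [mul_comm]; exact s_mul_i hb ha
theorem s_pow (ha : v a < 1) {n : ℕ} (hn : n ≠ 0) : v (a ^ n) < 1 := by
  rw [map_pow]; exact pow_lt_one₀ zero_le ha hn
theorem s_zero : v (0 : K) < 1 := by rw [map_zero]; exact zero_lt_one

theorem u_add_s (ha : v a = 1) (hb : v b < 1) : v (a + b) = 1 := by
  rw [v.map_add_eq_of_lt_left (by rw [ha]; exact hb), ha]
theorem u_sub_s (ha : v a = 1) (hb : v b < 1) : v (a - b) = 1 := by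
  rw [sub_eq_add_neg]; exact u_add_s ha (s_neg hb)
theorem s_add_u (ha : v a < 1) (hb : v b = 1) : v (a + b) = 1 := by
  rw [add_comm]; exact u_add_s hb ha
theorem s_sub_u (ha : v a < 1) (hb : v b = 1) : v (a - b) = 1 := by
  rw [← Valuation.map_neg, neg_sub]; exact u_sub_s hb ha
theorem u_mul (ha : v a = 1) (hb : v b = 1) : v (a * b) = 1 := by
  rw [map_mul, ha, hb, one_mul]
theorem u_pow (ha : v a = 1) (n : ℕ) : v (a ^ n) = 1 := by
  rw [map_pow, ha, one_pow]
theorem u_inv (ha : v a = 1) : v (a⁻¹) = 1 := by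
  rw [map_inv₀, ha, inv_one]
theorem u_neg (ha : v a = 1) : v (-a) = 1 := by rwa [Valuation.map_neg]
theorem u_one : v (1 : K) = 1 := map_one v

/-- closes goals `v e ≤ 1` and `v e < 1` by structural recursion on `e`. -/
syntax "vsm" : tactic
macro_rules
  | `(tactic| vsm) => `(tactic| first
      | assumption
      | exact i_one
      | exact i_zero
      | exact s_zero
      | exact i_ofNat _
      | exact i_natCast _
      | (apply i_of_s; assumption)
      | (apply i_of_u; assumption)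
      | (refine s_add ?_ ?_ <;> vsm)
      | (refine s_sub ?_ ?_ <;> vsm)
      | (refine s_neg ?_; vsm)
      | (refine s_mul_i ?_ ?_ <;> vsm)
      | (refine i_mul_s ?_ ?_ <;> vsm)
      | (refine s_pow ?_ (by norm_num); vsm)
      | (refine i_add ?_ ?_ <;> vsm)
      | (refine i_sub ?_ ?_ <;> vsm)
      | (refine i_neg ?_; vsm)
      | (refine i_mul ?_ ?_ <;> vsm)
      | (refine i_pow ?_ _; vsm))

example (c d e : K) (hc : v c ≤ 1) (hd : v d < 1) (he : v e = 1) :
    v (2 * c * d + e * d ^ 2 - 3 * (c + e) * (d * c)) < 1 := by vsm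

end Fermat.Agent.S05
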