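import Mathlib
import Fermat.Agent.S05.Val

set_option autoImplicit false

namespace Fermat.Agent.S05

variable {K : Type*} [Field K] {Γ₀ : Type*} [LinearOrderedCommGroupWithZero Γ₀]
  {v : Valuation K Γ₀}

theorem s_of_sum_prod {a b : K} (h1 : v (a + b) < 1) (h2 : v (a * b) < 1) :
    v a < 1 ∧ v b < 1 := by
  rw [map_mul] at h2
  by_contra hcon
  rw [not_and_or, not_lt, not_lt] at hcon
  rcases hcon with ha | hb
  · have hb : v b < 1 := by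
      by_contra hb
      rw [not_lt] at hb
      exact absurd h2 (not_lt.mpr (one_le_mul_of_one_le_of_one_le ha hb))
    have : v (a + b) = v a := v.map_add_eq_of_lt_left (lt_of_lt_of_le hb ha)
    rw [this] at h1
    exact absurd h1 (not_lt.mpr ha)
  · have ha : v a < 1 := by
      by_contra ha
      rw [not_lt] at ha
      exact absurd h2 (not_lt.mpr (one_le_mul_of_one_le_of_one_le ha hb))
    have : v (a + b) = v b := v.map_add_eq_of_lt_right (lt_of_lt_of_le ha hb)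
    rw [this] at h1
    exact absurd h1 (not_lt.mpr hb)

theorem big_of_sum_prod {a b : K} (h : 1 < v (a + b) ∨ 1 < v (a * b)) :
    1 < v a ∨ 1 < v b := by
  by_contra hcon
  rw [not_or, not_lt, not_lt] at hcon
  rcases h with h | h
  · exact absurd h (not_lt.mpr (i_add hcon.1 hcon.2))
  · exact absurd h (not_lt.mpr (i_mul hcon.1 hcon.2))

theorem s_inv_of_big {a : K} (h : 1 < v a) : v a⁻¹ < 1 := by
  rw [map_inv₀]
  exact inv_lt_one_of_one_lt₀ h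

theorem ne_zero_of_big {a : K} (h : 1 < v a) : a ≠ 0 := by
  rintro rfl
  rw [map_zero] at h
  exact absurd h (not_lt.mpr zero_le_one)

theorem big_of_s_inv {a : K} (h0 : a ≠ 0) (h : v a⁻¹ < 1) : 1 < v a := by
  rw [map_inv₀] at h
  have hv : 0 < v a := by
    rw [zero_lt_iff]; exact (v.ne_zero_iff).mpr h0
  exact (inv_lt_one₀ hv).mp h

theorem u_four (h2 : v (2 : K) = 1) : v (4 : K) = 1 := by
  have : (4 : K) = 2 * 2 := by norm_num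
  rw [this]; exact u_mul h2 h2

/-- from `c * a = b` with `c` a unit and `b` small, `a` is small -/
theorem s_of_u_mul_eq {a b c : K} (hc : v c = 1) (hb : v b < 1) (h : c * a = b) : v a < 1 := by
  have := congrArg v h
  rw [map_mul, hc, one_mul] at this
  rwa [this]

theorem i_of_u_mul_eq {a b c : K} (hc : v c = 1) (hb : v b ≤ 1) (h : c * a = b) : v a ≤ 1 := by
  have := congrArg v h
  rw [map_mul, hc, one_mul] at this
  rwa [this]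

theorem ne_zero_of_u {a : K} (h : v a = 1) : a ≠ 0 := by
  rintro rfl
  rw [map_zero] at h
  exact zero_ne_one h

/-- generic addition inside the kernel of reduction, in terms of `x`-coordinates. -/
theorem F_generic_alg {x₁ x₂ xp xm b₂ b₄ b₆ b₈ : K}
    (hb₂ : v b₂ ≤ 1) (hb₄ : v b₄ ≤ 1) (hb₆ : v b₆ ≤ 1) (hb₈ : v b₈ ≤ 1)
    (hsum : (x₁ - x₂) ^ 2 * (xp + xm) =
      2 * (x₁ * x₂) * (x₁ + x₂) + b₂ * (x₁ * x₂) + b₄ * (x₁ + x₂) + b₆)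
    (hprod : (x₁ - x₂) ^ 2 * (xp * xm) =
      (x₁ * x₂) ^ 2 - b₄ * (x₁ * x₂) - b₆ * (x₁ + x₂) - b₈)
    (h1 : 1 < v x₁) (h2 : 1 < v x₂) :
    1 < v xp ∧ 1 < v xm ∧ ∃ w, v w ≤ 1 ∧
      xp⁻¹ + xm⁻¹ - 2 * x₁⁻¹ - 2 * x₂⁻¹ = x₁⁻¹ * x₂⁻¹ * w := by
  have hx₁ := ne_zero_of_big h1
  have hx₂ := ne_zero_of_big h2
  have he₁ := s_inv_of_big h1
  have he₂ := s_inv_of_big h2
  obtain ⟨e₁, rfl⟩ : ∃ e, x₁ = e⁻¹ := ⟨x₁⁻¹, (inv_inv _).symm⟩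
  obtain ⟨e₂, rfl⟩ : ∃ e, x₂ = e⁻¹ := ⟨x₂⁻¹, (inv_inv _).symm⟩
  rw [inv_inv] at he₁ he₂
  have h0₁ : e₁ ≠ 0 := by rintro rfl; simp at hx₁
  have h0₂ : e₂ ≠ 0 := by rintro rfl; simp at hx₂
  simp only [inv_inv]
  set Den : K := 1 - (b₄ * (e₁ * e₂) + b₆ * (e₁ * e₂) * (e₁ + e₂) + b₈ * (e₁ * e₂) ^ 2) with hDen
  have hDu : v Den = 1 := u_sub_s u_one (by vsm)
  have hD0 : Den ≠ 0 := ne_zero_of_u hDu
  have hprod' : (e₂ - e₁) ^ 2 * (xp * xm) = Den := by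
    rw [hDen]
    field_simp at hprod
    linear_combination hprod
  have hsum' : (e₂ - e₁) ^ 2 * (xp + xm) =
      2 * (e₁ + e₂) + b₂ * (e₁ * e₂) + b₄ * (e₁ * e₂) * (e₁ + e₂) + b₆ * (e₁ * e₂) ^ 2 := by
    field_simp at hsum
    linear_combination hsum
  have hpm : xp * xm ≠ 0 := by
    intro h
    rw [h, mul_zero] at hprod'
    exact hD0 hprod'.symm
  have hp0 : xp ≠ 0 := left_ne_zero_of_mul hpm
  have hm0 : xm ≠ 0 := right_ne_zero_of_mul hpm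
  have hP : Den * (xp⁻¹ * xm⁻¹) = (e₂ - e₁) ^ 2 := by
    rw [← hprod']; field_simp
  have hS : Den * (xp⁻¹ + xm⁻¹) =
      2 * (e₁ + e₂) + b₂ * (e₁ * e₂) + b₄ * (e₁ * e₂) * (e₁ + e₂) + b₆ * (e₁ * e₂) ^ 2 := by
    rw [← hsum', ← hprod']; field_simp; ring
  have hs := s_of_sum_prod (s_of_u_mul_eq hDu (by vsm) hS) (s_of_u_mul_eq hDu (by vsm) hP)
  refine ⟨big_of_s_inv hp0 hs.1, big_of_s_inv hm0 hs.2,
    (b₂ + 3 * b₄ * (e₁ + e₂) + b₆ * (e₁ * e₂ + 2 * (e₁ + e₂) ^ 2)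
      + 2 * b₈ * (e₁ * e₂) * (e₁ + e₂)) / Den, ?_, ?_⟩
  · rw [map_div₀, hDu, div_one]
    vsm
  · generalize xp⁻¹ + xm⁻¹ = s at hS ⊢
    rw [mul_div_assoc', eq_div_iff hD0]
    rw [hDen] at hS ⊢
    linear_combination hS

/-- duplication inside the kernel of reduction: `ψ ≠ 0`. -/
theorem F_dup_ne_zero {x ψ b₂ b₄ b₆ : K}
    (hb₂ : v b₂ ≤ 1) (hb₄ : v b₄ ≤ 1) (hb₆ : v b₆ ≤ 1) (h2 : v (2 : K) = 1)
    (hψ : ψ ^ 2 = 4 * x ^ 3 + b₂ * x ^ 2 + 2 * b₄ * x + b₆) (h1 : 1 < v x) : ψ ≠ 0 := by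
  have hx := ne_zero_of_big h1
  have he := s_inv_of_big h1
  obtain ⟨e, rfl⟩ : ∃ e, x = e⁻¹ := ⟨x⁻¹, (inv_inv _).symm⟩
  rw [inv_inv] at he
  have h0 : e ≠ 0 := by rintro rfl; simp at hx
  have h4 := u_four h2
  have hD₁ : v (4 + (b₂ * e + 2 * b₄ * e ^ 2 + b₆ * e ^ 3)) = 1 := u_add_s h4 (by vsm)
  rintro rfl
  apply ne_zero_of_u hD₁
  field_simp at hψ
  linear_combination -hψ

theorem F_dup_alg {x x2 ψ b₂ b₄ b₆ b₈ : K}
    (hb₂ : v b₂ ≤ 1) (hb₄ : v b₄ ≤ 1) (hb₆ : v b₆ ≤ 1) (hb₈ : v b₈ ≤ 1) (h2 : v (2 : K) = 1)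
    (hψ : ψ ^ 2 = 4 * x ^ 3 + b₂ * x ^ 2 + 2 * b₄ * x + b₆)
    (hdup : ψ ^ 2 * x2 = x ^ 4 - b₄ * x ^ 2 - 2 * b₆ * x - b₈)
    (h1 : 1 < v x) :
    1 < v x2 ∧ ∃ w, v w ≤ 1 ∧ x2⁻¹ - 4 * x⁻¹ = x⁻¹ ^ 2 * w := by
  have hx := ne_zero_of_big h1
  have he := s_inv_of_big h1
  obtain ⟨e, rfl⟩ : ∃ e, x = e⁻¹ := ⟨x⁻¹, (inv_inv _).symm⟩
  rw [inv_inv] at he
  have h0 : e ≠ 0 := by rintro rfl; simp at hx
  simp only [inv_inv]
  have h4 := u_four h2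
  set D₁ : K := 4 + (b₂ * e + 2 * b₄ * e ^ 2 + b₆ * e ^ 3) with hD₁
  set D₂ : K := 1 - (b₄ * e ^ 2 + 2 * b₆ * e ^ 3 + b₈ * e ^ 4) with hD₂
  have hD₁u : v D₁ = 1 := u_add_s h4 (by vsm)
  have hD₂u : v D₂ = 1 := u_sub_s u_one (by vsm)
  have hD₁0 := ne_zero_of_u hD₁u
  have hD₂0 := ne_zero_of_u hD₂u
  have key : x2 * (e * D₁) = D₂ := by
    rw [hψ] at hdup
    field_simp at hdup
    rw [hD₁, hD₂]
    linear_combination hdup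
  have hx2 : x2 ≠ 0 := by
    rintro rfl
    rw [zero_mul] at key
    exact hD₂0 key.symm
  have hinv : x2⁻¹ = e * D₁ / D₂ := by
    rw [← key]; field_simp
  refine ⟨big_of_s_inv hx2 ?_, (b₂ + 6 * b₄ * e + 9 * b₆ * e ^ 2 + 4 * b₈ * e ^ 3) / D₂, ?_, ?_⟩
  · rw [hinv, map_div₀, hD₂u, div_one, map_mul, hD₁u, mul_one]; exact he
  · rw [map_div₀, hD₂u, div_one]
    vsm
  · rw [hinv, mul_div_assoc', eq_div_iff hD₂0, sub_mul, div_mul_cancel₀ _ hD₂0, hD₁, hD₂]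
    ring

end Fermat.Agent.S05
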