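import Mathlib
import Fermat.Agent.S05.Alg

set_option autoImplicit false

namespace Fermat.Agent.S05

/-- The `x`-only arithmetic of a Weierstrass curve, abstractly. -/
structure XData (G : Type*) [AddCommGroup G] (K : Type*) [Field K] where
  x : G → K
  ψ : G → K
  b₂ : K
  b₄ : K
  b₆ : K
  b₈ : K
  b_rel : 4 * b₈ = b₂ * b₆ - b₄ ^ 2
  x_neg : ∀ P, x (-P) = x P
  ψ_neg : ∀ P, ψ (-P) = -ψ P
  ψ_sq : ∀ P, P ≠ 0 → ψ P ^ 2 = 4 * x P ^ 3 + b₂ * x P ^ 2 + 2 * b₄ * x P + b₆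
  eq_or : ∀ P Q, P ≠ 0 → Q ≠ 0 → x P = x Q → P = Q ∨ P = -Q
  sum : ∀ P Q, P ≠ 0 → Q ≠ 0 → x P ≠ x Q →
    (x P - x Q) ^ 2 * (x (P + Q) + x (P - Q)) =
      2 * (x P * x Q) * (x P + x Q) + b₂ * (x P * x Q) + b₄ * (x P + x Q) + b₆
  prod : ∀ P Q, P ≠ 0 → Q ≠ 0 → x P ≠ x Q →
    (x P - x Q) ^ 2 * (x (P + Q) * x (P - Q)) =
      (x P * x Q) ^ 2 - b₄ * (x P * x Q) - b₆ * (x P + x Q) - b₈
  two : ∀ P, P ≠ 0 → (2 • P = 0 ↔ ψ P = 0)
  dup : ∀ P, P ≠ 0 → ψ P ≠ 0 →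
    ψ P ^ 2 * x (2 • P) = x P ^ 4 - b₄ * x P ^ 2 - 2 * b₆ * x P - b₈

variable {G : Type*} [AddCommGroup G] {K : Type*} [Field K]

/-- translation of the `x`-coordinate. -/
def XData.shift (D : XData G K) (r : K) : XData G K where
  x P := D.x P - r
  ψ := D.ψ
  b₂ := D.b₂ + 12 * r
  b₄ := D.b₄ + r * D.b₂ + 6 * r ^ 2
  b₆ := D.b₆ + 2 * r * D.b₄ + r ^ 2 * D.b₂ + 4 * r ^ 3
  b₈ := D.b₈ + 3 * r * D.b₆ + 3 * r ^ 2 * D.b₄ + r ^ 3 * D.b₂ + 3 * r ^ 4
  b_rel := by linear_combination D.b_rel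
  x_neg P := by rw [D.x_neg]
  ψ_neg := D.ψ_neg
  ψ_sq P hP := by rw [D.ψ_sq P hP]; ring
  eq_or P Q hP hQ h := D.eq_or P Q hP hQ (sub_left_injective h)
  sum P Q hP hQ h := by
    have h' : D.x P ≠ D.x Q := fun h0 => h (by rw [h0])
    linear_combination D.sum P Q hP hQ h'
  prod P Q hP hQ h := by
    have h' : D.x P ≠ D.x Q := fun h0 => h (by rw [h0])
    linear_combination D.prod P Q hP hQ h' - r * D.sum P Q hP hQ h'
  two := D.two
  dup P hP hψ := by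
    linear_combination D.dup P hP hψ - r * D.ψ_sq P hP

section group

theorem nsmul_ne_zero_of_prime {p : ℕ} (hp : p.Prime) {R : G} (hR : R ≠ 0) (hpR : p • R = 0)
    {k : ℕ} (hk : ¬ p ∣ k) : k • R ≠ 0 := by
  intro h
  have : Fact p.Prime := ⟨hp⟩
  have ho : addOrderOf R = p := addOrderOf_eq_prime hpR hR
  exact hk (ho ▸ addOrderOf_dvd_of_nsmul_eq_zero h)

end group

variable {Γ₀ : Type*} [LinearOrderedCommGroupWithZero Γ₀]

/-- integrality of the model, residue characteristic not `2`. -/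
structure XData.Integral (D : XData G K) (v : Valuation K Γ₀) : Prop where
  b₂ : v D.b₂ ≤ 1
  b₄ : v D.b₄ ≤ 1
  b₆ : v D.b₆ ≤ 1
  b₈ : v D.b₈ ≤ 1
  two : v (2 : K) = 1

variable {D : XData G K} {v : Valuation K Γ₀}

theorem x_ne_of_prime {p : ℕ} (hp : p.Prime) {R : G} (hR : R ≠ 0) (hpR : p • R = 0)
    {k : ℕ} (hk2 : 2 ≤ k) (hkp : k + 2 ≤ p) : D.x (k • R) ≠ D.x R := by
  intro h
  have hk : k • R ≠ 0 := nsmul_ne_zero_of_prime hp hR hpR
    (fun hd => by have := Nat.le_of_dvd (by omega) hd; omega)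
  rcases D.eq_or _ _ hk hR h with h1 | h1
  · have : (k - 1) • R = 0 := by
      rw [sub_nsmul _ (by omega : 1 ≤ k), one_nsmul, h1, add_neg_cancel]
    exact nsmul_ne_zero_of_prime hp hR hpR
      (fun hd => by have := Nat.le_of_dvd (by omega) hd; omega) this
  · have : (k + 1) • R = 0 := by
      rw [add_nsmul, one_nsmul, h1, neg_add_cancel]
    exact nsmul_ne_zero_of_prime hp hR hpR
      (fun hd => by have := Nat.le_of_dvd (by omega) hd; omega) this

/-- The kernel of reduction has no `p`-torsion, for `p` odd and prime to the residue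
characteristic. -/
theorem no_torsion_E1 (hI : D.Integral v) {p : ℕ} (hp : p.Prime) (hp2 : p ≠ 2)
    (hvp : v (p : K) = 1) {R : G} (hR : R ≠ 0) (hx : 1 < v (D.x R)) (hpR : p • R = 0) : False := by
  obtain ⟨hb₂, hb₄, hb₆, hb₈, h2⟩ := hI
  have hx0 := ne_zero_of_big hx
  have hp3 : 3 ≤ p := by
    have := hp.two_le
    omega
  have key : ∀ k : ℕ, k + 3 ≤ p →
      (1 < v (D.x ((k + 1) • R)) ∧ v ((D.x ((k + 1) • R))⁻¹ * D.x R - ((k + 1 : ℕ) : K) ^ 2) < 1) ∧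
      (1 < v (D.x ((k + 2) • R)) ∧ v ((D.x ((k + 2) • R))⁻¹ * D.x R - ((k + 2 : ℕ) : K) ^ 2) < 1) := by
    intro k
    induction k with
    | zero =>
      intro _
      have hψ := D.ψ_sq R hR
      have hψ0 := F_dup_ne_zero hb₂ hb₄ hb₆ h2 hψ hx
      obtain ⟨h1, w, hw, hw2⟩ := F_dup_alg hb₂ hb₄ hb₆ hb₈ h2 hψ (D.dup R hR hψ0) hx
      refine ⟨⟨by simpa using hx, ?_⟩, ⟨by simpa using h1, ?_⟩⟩
      · simp [hx0]
      · have he := s_inv_of_big hx
        have : (D.x ((0 + 2) • R))⁻¹ * D.x R - ((0 + 2 : ℕ) : K) ^ 2 = (D.x R)⁻¹ * w := by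
          have h3 : (D.x (2 • R))⁻¹ = 4 * (D.x R)⁻¹ + (D.x R)⁻¹ ^ 2 * w := by
            linear_combination hw2
          simp only [zero_add]
          rw [h3]
          push_cast
          field_simp
          ring
        rw [this]
        vsm
    | succ k ih =>
      intro hk
      obtain ⟨⟨h1, h1'⟩, ⟨h2', h2''⟩⟩ := ih (by omega)
      refine ⟨⟨by simpa [add_assoc] using h2', by simpa [add_assoc] using h2''⟩, ?_⟩
      have hP : (k + 2) • R ≠ 0 := nsmul_ne_zero_of_prime hp hR hpR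
        (fun hd => by have := Nat.le_of_dvd (by omega) hd; omega)
      have hne : D.x ((k + 2) • R) ≠ D.x R := x_ne_of_prime hp hR hpR (by omega) (by omega)
      have e1 : (k + 2) • R + R = (k + 1 + 2) • R := by
        rw [show k + 1 + 2 = (k + 2) + 1 by ring, add_nsmul _ (k + 2) 1, one_nsmul]
      have e2 : (k + 2) • R - R = (k + 1) • R := by
        rw [show k + 2 = (k + 1) + 1 by ring, add_nsmul _ (k + 1) 1, one_nsmul, add_sub_cancel_right]
      have hs := D.sum _ _ hP hR hne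
      have hpr := D.prod _ _ hP hR hne
      rw [e1, e2] at hs hpr
      obtain ⟨g1, -, w, hw, hw2⟩ := F_generic_alg hb₂ hb₄ hb₆ hb₈ hs hpr h2' hx
      refine ⟨g1, ?_⟩
      have he := s_inv_of_big h2'
      have : (D.x ((k + 1 + 2) • R))⁻¹ * D.x R - ((k + 1 + 2 : ℕ) : K) ^ 2 =
          (D.x ((k + 2) • R))⁻¹ * w
          - ((D.x ((k + 1) • R))⁻¹ * D.x R - ((k + 1 : ℕ) : K) ^ 2)
          + 2 * ((D.x ((k + 2) • R))⁻¹ * D.x R - ((k + 2 : ℕ) : K) ^ 2) := by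
        have h3 : (D.x ((k + 1 + 2) • R))⁻¹ = - (D.x ((k + 1) • R))⁻¹ + 2 * (D.x ((k + 2) • R))⁻¹
            + 2 * (D.x R)⁻¹ + (D.x ((k + 2) • R))⁻¹ * (D.x R)⁻¹ * w := by
          linear_combination hw2
        rw [h3]
        generalize (D.x ((k + 1) • R))⁻¹ = A
        generalize (D.x ((k + 2) • R))⁻¹ = B
        push_cast
        field_simp
        ring
      rw [this]
      vsm
  -- conclude
  obtain ⟨h, rfl⟩ : ∃ h, p = 2 * h + 1 := by
    rcases hp.eq_two_or_odd' with h | h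
    · exact absurd h hp2
    · exact h
  obtain ⟨h', rfl⟩ : ∃ h', h = h' + 1 := ⟨h - 1, by omega⟩
  obtain ⟨⟨-, c1⟩, ⟨-, c2⟩⟩ := key h' (by omega)
  have hxx : D.x ((h' + 2) • R) = D.x ((h' + 1) • R) := by
    have : (h' + 2) • R = - ((h' + 1) • R) := by
      rw [eq_neg_iff_add_eq_zero, ← add_nsmul, ← hpR]
      congr 1; ring
    rw [this, D.x_neg]
  rw [hxx] at c2
  have := s_sub c1 c2
  have h3 : (D.x ((h' + 1) • R))⁻¹ * D.x R - ((h' + 1 : ℕ) : K) ^ 2 -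
      ((D.x ((h' + 1) • R))⁻¹ * D.x R - ((h' + 2 : ℕ) : K) ^ 2) = ((2 * (h' + 1) + 1 : ℕ) : K) := by
    push_cast; ring
  rw [h3, hvp] at this
  exact lt_irrefl _ this

theorem big_of_s_mul_eq_u {a b c : K} (ha : v a < 1) (h : a * b = c) (hc : v c = 1) :
    1 < v b := by
  have h1 := congrArg v h
  rw [map_mul, hc] at h1
  by_contra hb
  rw [not_lt] at hb
  have : v a * v b < 1 := mul_lt_one_of_nonneg_of_lt_one_left zero_le ha hb
  rw [h1] at this
  exact lt_irrefl _ this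

theorem u_of_i_of_not_s {a : K} (h1 : v a ≤ 1) (h2 : ¬ v a < 1) : v a = 1 :=
  le_antisymm h1 (not_lt.mp h2)

/-- An automorphism of the data acting trivially on the residue field. -/
structure XData.Inertial (D : XData G K) (v : Valuation K Γ₀) (s : G →+ G) (σ : K →+* K) :
    Prop where
  s_ne : ∀ P, P ≠ 0 → s P ≠ 0
  x_s : ∀ P, P ≠ 0 → D.x (s P) = σ (D.x P)
  ψ_s : ∀ P, P ≠ 0 → D.ψ (s P) = σ (D.ψ P)
  inert : ∀ a, v a ≤ 1 → v (σ a - a) < 1

theorem add_ne_zero_of_x_ne {P Q : G} (h : D.x P ≠ D.x Q) : P + Q ≠ 0 := by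
  intro h0
  have : P = -Q := eq_neg_of_add_eq_zero_left h0
  rw [this, D.x_neg] at h
  exact h rfl

theorem sub_ne_zero_of_x_ne {P Q : G} (h : D.x P ≠ D.x Q) : P - Q ≠ 0 := by
  intro h0
  have : P = Q := sub_eq_zero.mp h0
  rw [this] at h
  exact h rfl

/-- A `p`-torsion point with integral `x`-coordinate and nonsingular reduction is fixed
by inertia. -/
theorem fixed_of_NS (hI : D.Integral v) {p : ℕ} (hp : p.Prime) (hp2 : p ≠ 2)
    (hvp : v (p : K) = 1) {s : G →+ G} {σ : K →+* K} (hA : D.Inertial v s σ)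
    {P : G} (hP : P ≠ 0) (hpP : p • P = 0) (hxI : v (D.x P) ≤ 1)
    (hNS : ¬ (v (D.x P ^ 4 - D.b₄ * D.x P ^ 2 - 2 * D.b₆ * D.x P - D.b₈) < 1 ∧
      v (4 * D.x P ^ 3 + D.b₂ * D.x P ^ 2 + 2 * D.b₄ * D.x P + D.b₆) < 1)) : s P = P := by
  have hI' := hI
  obtain ⟨hb₂, hb₄, hb₆, hb₈, h2⟩ := hI
  have hsP : s P ≠ 0 := hA.s_ne P hP
  have hpsP : p • s P = 0 := by rw [← map_nsmul, hpP, map_zero]
  have hη : v (D.x (s P) - D.x P) < 1 := by rw [hA.x_s P hP]; exact hA.inert _ hxI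
  have hφI : v (D.x P ^ 4 - D.b₄ * D.x P ^ 2 - 2 * D.b₆ * D.x P - D.b₈) ≤ 1 := by vsm
  have hψI : v (4 * D.x P ^ 3 + D.b₂ * D.x P ^ 2 + 2 * D.b₄ * D.x P + D.b₆) ≤ 1 := by vsm
  by_cases hx : D.x (s P) = D.x P
  · rcases D.eq_or _ _ hsP hP hx with h | h
    · exact h
    · exfalso
      have h1 : σ (D.ψ P) = - D.ψ P := by rw [← hA.ψ_s P hP, h, D.ψ_neg]
      have hψsq := D.ψ_sq P hP
      have hψi : v (D.ψ P) ≤ 1 := by
        have : v (D.ψ P) ^ 2 ≤ 1 := by rw [← map_pow, hψsq]; exact hψI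
        exact (pow_le_one_iff_of_nonneg zero_le (by norm_num)).mp this
      have h3 := hA.inert _ hψi
      rw [h1] at h3
      have h4 : v (D.ψ P) < 1 := by
        have : - D.ψ P - D.ψ P = - (2 * D.ψ P) := by ring
        rw [this, Valuation.map_neg, map_mul, h2, one_mul] at h3
        exact h3
      have h5 : v (4 * D.x P ^ 3 + D.b₂ * D.x P ^ 2 + 2 * D.b₄ * D.x P + D.b₆) < 1 := by
        rw [← hψsq]; vsm
      have h6 := u_of_i_of_not_s hφI (fun h => hNS ⟨h, h5⟩)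
      have h2P : 2 • P ≠ 0 := nsmul_ne_zero_of_prime hp hP hpP
        (fun hd => by
          have := Nat.le_of_dvd (by omega) hd
          have := hp.two_le
          omega)
      have hψ0 : D.ψ P ≠ 0 := fun h0 => h2P ((D.two P hP).mpr h0)
      have h7 := big_of_s_mul_eq_u (by vsm) (D.dup P hP hψ0) h6
      exact no_torsion_E1 hI' hp hp2 hvp h2P h7 (by rw [smul_comm, hpP, smul_zero])
  · exfalso
    have hx' : D.x P ≠ D.x (s P) := fun h => hx h.symm
    have hs := D.sum _ _ hP hsP hx'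
    have hpr := D.prod _ _ hP hsP hx'
    obtain ⟨η, hηdef⟩ : ∃ η, D.x (s P) = D.x P + η := ⟨D.x (s P) - D.x P, by ring⟩
    rw [hηdef] at hs hpr hη
    have hη' : v η < 1 := by simpa using hη
    have hbig : 1 < v (D.x (P + s P) + D.x (P - s P)) ∨ 1 < v (D.x (P + s P) * D.x (P - s P)) := by
      by_cases hc : v (D.x P ^ 4 - D.b₄ * D.x P ^ 2 - 2 * D.b₆ * D.x P - D.b₈) < 1
      · left
        have h6 := u_of_i_of_not_s hψI (fun h => hNS ⟨hc, h⟩)
        refine big_of_s_mul_eq_u (a := (D.x P - (D.x P + η)) ^ 2) ?_ hs ?_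
        · have : (D.x P - (D.x P + η)) ^ 2 = η ^ 2 := by ring
          rw [this]; vsm
        · have : 2 * (D.x P * (D.x P + η)) * (D.x P + (D.x P + η)) + D.b₂ * (D.x P * (D.x P + η)) +
              D.b₄ * (D.x P + (D.x P + η)) + D.b₆ =
              (4 * D.x P ^ 3 + D.b₂ * D.x P ^ 2 + 2 * D.b₄ * D.x P + D.b₆) +
              η * (6 * D.x P ^ 2 + 2 * D.x P * η + D.b₂ * D.x P + D.b₄) := by ring
          rw [this]
          exact u_add_s h6 (by vsm)
      · right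
        have h6 := u_of_i_of_not_s hφI hc
        refine big_of_s_mul_eq_u (a := (D.x P - (D.x P + η)) ^ 2) ?_ hpr ?_
        · have : (D.x P - (D.x P + η)) ^ 2 = η ^ 2 := by ring
          rw [this]; vsm
        · have : (D.x P * (D.x P + η)) ^ 2 - D.b₄ * (D.x P * (D.x P + η)) -
              D.b₆ * (D.x P + (D.x P + η)) - D.b₈ =
              (D.x P ^ 4 - D.b₄ * D.x P ^ 2 - 2 * D.b₆ * D.x P - D.b₈) +
              η * (2 * D.x P ^ 3 + D.x P ^ 2 * η - D.b₄ * D.x P - D.b₆) := by ring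
          rw [this]
          exact u_add_s h6 (by vsm)
    rcases big_of_sum_prod hbig with h | h
    · exact no_torsion_E1 hI' hp hp2 hvp (add_ne_zero_of_x_ne hx') h
        (by rw [smul_add, hpP, hpsP, add_zero])
    · exact no_torsion_E1 hI' hp hp2 hvp (sub_ne_zero_of_x_ne hx') h
        (by rw [smul_sub, hpP, hpsP, sub_zero])

end Fermat.Agent.S05
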