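import Mathlib
import Fermat.Agent.S05.Alg

set_option autoImplicit false

namespace Fermat.Agent.S05

variable {K : Type*} [Field K] {Γ₀ : Type*} [LinearOrderedCommGroupWithZero Γ₀]
  {v : Valuation K Γ₀}

theorem i_inv_of_one_le {a : K} (h : 1 ≤ v a) : v a⁻¹ ≤ 1 := by
  rw [map_inv₀]
  exact inv_le_one_of_one_le₀ h

theorem ne_zero_of_one_le {a : K} (h : 1 ≤ v a) : a ≠ 0 := by
  rintro rfl
  rw [map_zero] at h
  exact absurd h (not_le.mpr zero_lt_one)

/-- node-reducing plus not node-reducing is node-reducing. -/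
theorem N_closure_alg {a y xp xm b₂ β : K} (hb₂ : v b₂ ≤ 1) (hβ : v β < 1)
    (hsum : (a - y) ^ 2 * (xp + xm) =
      2 * (a * y) * (a + y) + b₂ * (a * y) + 2 * β * (a + y))
    (hprod : (a - y) ^ 2 * (xp * xm) = (a * y - β) ^ 2)
    (ha : v a < 1) (hy : 1 ≤ v y) : v xp < 1 ∧ v xm < 1 := by
  have hy0 := ne_zero_of_one_le hy
  have he := i_inv_of_one_le hy
  obtain ⟨e, rfl⟩ : ∃ e, y = e⁻¹ := ⟨y⁻¹, (inv_inv _).symm⟩
  rw [inv_inv] at he
  have h0 : e ≠ 0 := by rintro rfl; simp at hy0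
  have hu : v ((a * e - 1) ^ 2) = 1 := u_pow (s_sub_u (by vsm) u_one) 2
  have hs' : (a * e - 1) ^ 2 * (xp + xm) =
      2 * a * (a * e + 1) + b₂ * (a * e) + 2 * β * e * (a * e + 1) := by
    field_simp at hsum
    linear_combination hsum
  have hp' : (a * e - 1) ^ 2 * (xp * xm) = (a - β * e) ^ 2 := by
    field_simp at hprod
    linear_combination hprod
  exact s_of_sum_prod (s_of_u_mul_eq hu (by vsm) hs') (s_of_u_mul_eq hu (by vsm) hp')

theorem s_div_of_lt {a b : K} (h : v a < v b) : v (a / b) < 1 := by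
  have hb : 0 < v b := lt_of_le_of_lt zero_le h
  rw [map_div₀]
  exact (div_lt_one₀ hb).mpr h

theorem u_div_of_eq {a b : K} (hb : b ≠ 0) (h : v a = v b) : v (a / b) = 1 := by
  rw [map_div₀, h]
  exact div_self ((v.ne_zero_iff).mpr hb)

/-- two node-reducing points in the open range with the same valuation: contradiction
unless the `x`-coordinates agree. -/
theorem claim1_alg {x x' xp xm b₂ β : K} (hb₂ : v b₂ = 1)
    (hsum : (x - x') ^ 2 * (xp + xm) =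
      2 * (x * x') * (x + x') + b₂ * (x * x') + 2 * β * (x + x'))
    (hx : v x < 1) (hβx : v β < v x) (hxx : v x' = v x) (hp : v xp < 1) (hm : v xm < 1) :
    False := by
  have hx0 : x ≠ 0 := by
    rintro rfl
    rw [map_zero] at hβx
    exact absurd hβx (not_lt.mpr zero_le)
  have hu := u_div_of_eq hx0 hxx
  have hb := s_div_of_lt hβx
  obtain ⟨u, rfl⟩ : ∃ u, x' = u * x := ⟨x' / x, by field_simp⟩
  obtain ⟨β', rfl⟩ : ∃ β', β = β' * x := ⟨β / x, by field_simp⟩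
  rw [mul_div_cancel_right₀ _ hx0] at hu hb
  have h1 : (1 - u) ^ 2 * (xp + xm) = b₂ * u + (2 * u * x * (1 + u) + 2 * β' * (1 + u)) := by
    have hx2 : x ^ 2 ≠ 0 := pow_ne_zero 2 hx0
    apply mul_left_cancel₀ hx2
    linear_combination hsum
  have h2 : v ((1 - u) ^ 2 * (xp + xm)) < 1 := by vsm
  have h3 : v (b₂ * u + (2 * u * x * (1 + u) + 2 * β' * (1 + u))) = 1 :=
    u_add_s (u_mul hb₂ hu) (by vsm)
  rw [h1, h3] at h2
  exact lt_irrefl _ h2

/-- the product recurrence on valuations. -/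
theorem rec_alg {xk x₁ xp xm β : K}
    (hprod : (xk - x₁) ^ 2 * (xp * xm) = (xk * x₁ - β) ^ 2) (h : v xk < v x₁) :
    v x₁ ^ 2 * v xp * v xm = v (xk * x₁ - β) ^ 2 := by
  have h1 : v (xk - x₁) = v x₁ := v.map_sub_eq_of_lt_right h
  have := congrArg v hprod
  rw [map_mul, map_pow, map_mul, map_pow, h1] at this
  rw [mul_assoc]; exact this

theorem dup_node_alg {x₁ x₂ ψ b₂ β : K} (hb₂ : v b₂ = 1)
    (hψ : ψ ^ 2 = 4 * x₁ ^ 3 + b₂ * x₁ ^ 2 + 4 * β * x₁)
    (hdup : ψ ^ 2 * x₂ = (x₁ ^ 2 - β) ^ 2) (hx : v x₁ < 1) (hβx : v β < v x₁) :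
    v x₁ ^ 2 * v x₂ = v (x₁ * x₁ - β) ^ 2 := by
  have hx0 : x₁ ≠ 0 := by
    rintro rfl
    rw [map_zero] at hβx
    exact absurd hβx (not_lt.mpr zero_le)
  have hb := s_div_of_lt hβx
  obtain ⟨β', rfl⟩ : ∃ β', β = β' * x₁ := ⟨β / x₁, by field_simp⟩
  rw [mul_div_cancel_right₀ _ hx0] at hb
  have h1 : ψ ^ 2 = x₁ ^ 2 * (b₂ + (4 * x₁ + 4 * β')) := by rw [hψ]; ring
  have h2 : v (b₂ + (4 * x₁ + 4 * β')) = 1 := u_add_s hb₂ (by vsm)
  have := congrArg v hdup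
  rw [h1, map_mul, map_mul, map_pow, h2, mul_one, map_pow] at this
  rw [this, sq x₁]

/-- `ψ / x` is a unit for a node-reducing point in the open range. -/
theorem tau_unit_alg {x ψ b₂ β : K} (hb₂ : v b₂ = 1)
    (hψ : ψ ^ 2 = 4 * x ^ 3 + b₂ * x ^ 2 + 4 * β * x) (hx : v x < 1) (hβx : v β < v x) :
    v (ψ / x) = 1 := by
  have hx0 : x ≠ 0 := by
    rintro rfl
    rw [map_zero] at hβx
    exact absurd hβx (not_lt.mpr zero_le)
  have hb := s_div_of_lt hβx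
  obtain ⟨β', rfl⟩ : ∃ β', β = β' * x := ⟨β / x, by field_simp⟩
  rw [mul_div_cancel_right₀ _ hx0] at hb
  have h1 : (ψ / x) ^ 2 = b₂ + (4 * x + 4 * β') := by
    rw [div_pow, hψ]; field_simp; ring
  have h2 : v (b₂ + (4 * x + 4 * β')) = 1 := u_add_s hb₂ (by vsm)
  have h3 : v (ψ / x) ^ 2 = 1 := by rw [← map_pow, h1, h2]
  exact (pow_eq_one_iff_of_nonneg zero_le (by norm_num)).mp h3

/-- final step: if `x' = x (1 + ε)` with `ε` small and nonzero then `x(P ± P')` is not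
integral for one of the signs. -/
theorem N5_alg {x ε xp xm b₂ β : K} (hb₂ : v b₂ = 1)
    (hsum : (x - x * (1 + ε)) ^ 2 * (xp + xm) =
      2 * (x * (x * (1 + ε))) * (x + x * (1 + ε)) + b₂ * (x * (x * (1 + ε)))
        + 2 * β * (x + x * (1 + ε)))
    (hx : v x < 1) (hβx : v β < v x) (hε : v ε < 1) :
    1 < v xp ∨ 1 < v xm := by
  have hx0 : x ≠ 0 := by
    rintro rfl
    rw [map_zero] at hβx
    exact absurd hβx (not_lt.mpr zero_le)
  have hb := s_div_of_lt hβx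
  obtain ⟨β', rfl⟩ : ∃ β', β = β' * x := ⟨β / x, by field_simp⟩
  rw [mul_div_cancel_right₀ _ hx0] at hb
  have h1 : ε ^ 2 * (xp + xm) =
      b₂ + (b₂ * ε + 2 * x * (1 + ε) * (2 + ε) + 2 * β' * (2 + ε)) := by
    have hx2 : x ^ 2 ≠ 0 := pow_ne_zero 2 hx0
    apply mul_left_cancel₀ hx2
    linear_combination hsum
  have h3 : v (b₂ + (b₂ * ε + 2 * x * (1 + ε) * (2 + ε) + 2 * β' * (2 + ε))) = 1 :=
    u_add_s hb₂ (by vsm)
  apply big_of_sum_prod
  left
  have h4 := congrArg v h1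
  rw [map_mul, h3] at h4
  by_contra hcon
  rw [not_lt] at hcon
  have : v (ε ^ 2) * v (xp + xm) < 1 :=
    mul_lt_one_of_nonneg_of_lt_one_left zero_le (by vsm) hcon
  rw [h4] at this
  exact lt_irrefl _ this

end Fermat.Agent.S05
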