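import Mathlib

set_option autoImplicit false

namespace Fermat.Agent.S05

variable {Γ₀ : Type*} [LinearOrderedCommGroupWithZero Γ₀]

theorem pow_anti {δ : Γ₀} (hδ1 : δ < 1) {a b : ℕ} (h : a ≤ b) : δ ^ b ≤ δ ^ a :=
  pow_le_pow_of_le_one zero_le hδ1.le h

theorem seq_lemma {δ μ : Γ₀} {n : ℕ} (r : ℕ → Γ₀) (hμ0 : μ ≠ 0) (hμδ : μ < δ) (hδ1 : δ < 1)
    (hn : 2 ≤ n) (r0 : r 0 = 1) (r1 : r 1 = δ) (rn : r n = δ)
    (hr : ∀ k, 1 ≤ k → k ≤ n → μ < r k)
    (hrec : ∀ k, k + 1 < n → ∃ c, δ ^ 2 * r (k + 2) * r k = c ^ 2 ∧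
      (μ < r (k + 1) * δ → c = r (k + 1) * δ) ∧ (r (k + 1) * δ < μ → c = μ) ∧
      (r (k + 1) * δ = μ → c ≤ μ)) :
    δ ^ (n + 1) = μ ^ 2 := by
  have hδ0 : δ ≠ 0 := by
    rintro rfl
    exact absurd hμδ (not_lt.mpr zero_le)
  have hδpos : ∀ k : ℕ, 0 < δ ^ k := fun k => zero_lt_iff.mpr (pow_ne_zero k hδ0)
  have hμpos : 0 < μ := zero_lt_iff.mpr hμ0
  -- phase 1
  have ph1 : ∀ k, (k ≤ n → μ < δ ^ k → r k = δ ^ k) ∧
      (k + 1 ≤ n → μ < δ ^ (k + 1) → r (k + 1) = δ ^ (k + 1)) := by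
    intro k
    induction k with
    | zero => exact ⟨fun _ _ => by rw [r0, pow_zero], fun _ _ => by rw [zero_add, r1, pow_one]⟩
    | succ k ih =>
      refine ⟨ih.2, fun hk hμ => ?_⟩
      have h1 : μ < δ ^ (k + 1) := lt_of_lt_of_le hμ (pow_anti hδ1 (by omega))
      have h0 : μ < δ ^ k := lt_of_lt_of_le hμ (pow_anti hδ1 (by omega))
      have e1 := ih.2 (by omega) h1
      have e0 := ih.1 (by omega) h0
      obtain ⟨c, hc, hc1, -, -⟩ := hrec k (by omega)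
      have hc' : c = δ ^ (k + 2) := by
        rw [hc1 (by rw [e1, ← pow_succ]; exact hμ), e1, ← pow_succ]
      rw [e0, hc'] at hc
      have : δ ^ (k + 2) * r (k + 2) = δ ^ (k + 2) * δ ^ (k + 2) := by
        calc δ ^ (k + 2) * r (k + 2) = δ ^ 2 * r (k + 2) * δ ^ k := by rw [pow_add]; ac_rfl
          _ = (δ ^ (k + 2)) ^ 2 := hc
          _ = _ := sq _
      exact mul_left_cancel₀ (pow_ne_zero _ hδ0) this
  -- the transition index
  have hnot : ¬ μ < δ ^ n := by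
    intro h
    have h1 := (ph1 n).1 le_rfl h
    rw [rn] at h1
    have h2 : δ ^ n < δ ^ 1 := pow_lt_pow_right_of_lt_one₀ (zero_lt_iff.mpr hδ0) hδ1 (by omega)
    rw [pow_one, ← h1] at h2
    exact lt_irrefl _ h2
  classical
  have hex : ∃ k, ¬ μ < δ ^ k := ⟨n, hnot⟩
  obtain ⟨k₁, hk₁, hmin⟩ : ∃ k₁, ¬ μ < δ ^ k₁ ∧ ∀ j < k₁, μ < δ ^ j :=
    ⟨Nat.find hex, Nat.find_spec hex, fun j hj => not_not.mp (Nat.find_min hex hj)⟩
  have hk₁n : k₁ ≤ n := by
    by_contra h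
    exact hnot (hmin n (by omega))
  have hk₁2 : 2 ≤ k₁ := by
    by_contra h
    have : k₁ = 0 ∨ k₁ = 1 := by omega
    rcases this with rfl | rfl
    · exact hk₁ (by rw [pow_zero]; exact lt_trans hμδ hδ1)
    · exact hk₁ (by rw [pow_one]; exact hμδ)
  obtain ⟨k, rfl⟩ : ∃ k, k₁ = k + 2 := ⟨k₁ - 2, by omega⟩
  have hk1 : μ < δ ^ (k + 1) := hmin _ (by omega)
  have hk0 : μ < δ ^ k := hmin _ (by omega)
  have e1 := (ph1 k).2 (by omega) hk1
  have e0 := (ph1 k).1 (by omega) hk0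
  rw [not_lt] at hk₁
  -- the value at the transition
  have hbase : r (k + 2) * δ ^ (k + 2) = μ ^ 2 ∧ δ ^ (k + 2) < μ := by
    obtain ⟨c, hc, -, hc2, hc3⟩ := hrec k (by omega)
    rw [e0] at hc
    have hc' : r (k + 2) * δ ^ (k + 2) = c ^ 2 := by
      rw [← hc, pow_add]; ac_rfl
    rcases lt_or_eq_of_le hk₁ with hlt | heq
    · refine ⟨?_, hlt⟩
      rw [hc', hc2 (by rw [e1, ← pow_succ]; exact hlt)]
    · exfalso
      have hcμ : c ≤ μ := hc3 (by rw [e1, ← pow_succ]; exact heq)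
      have h1 : r (k + 2) * δ ^ (k + 2) ≤ μ * δ ^ (k + 2) := by
        rw [hc', sq, heq]
        exact mul_le_mul' hcμ hcμ
      have h2 : r (k + 2) ≤ μ := le_of_mul_le_mul_right h1 (hδpos _)
      exact absurd (hr (k + 2) (by omega) hk₁n) (not_lt.mpr h2)
  obtain ⟨hb, hlt⟩ := hbase
  -- phase 2
  have ph2 : ∀ j, (k + 2 + j ≤ n → r (k + 2 + j) * δ ^ (k + 2 + j) = μ ^ 2) ∧
      (k + 2 + j + 1 ≤ n → r (k + 2 + j + 1) * δ ^ (k + 2 + j + 1) = μ ^ 2) := by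
    intro j
    induction j with
    | zero =>
      refine ⟨fun _ => hb, fun hk => ?_⟩
      obtain ⟨c, hc, -, hc2, -⟩ := hrec (k + 1) (by omega)
      have hsm : r (k + 1 + 1) * δ < μ := by
        have h1 : (r (k + 2) * δ) * δ ^ (k + 1) < μ * δ ^ (k + 1) := by
          calc (r (k + 2) * δ) * δ ^ (k + 1) = r (k + 2) * δ ^ (k + 2) := by
                rw [pow_succ δ (k + 1)]; ac_rfl
            _ = μ * μ := by rw [hb, sq]
            _ < μ * δ ^ (k + 1) := by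
                exact mul_lt_mul_of_pos_left hk1 hμpos
        exact lt_of_mul_lt_mul_right h1 zero_le
      rw [hc2 hsm, e1] at hc
      rw [← hc]
      have : k + 2 + 0 + 1 = k + 1 + 2 := by ring
      rw [this, pow_add δ (k + 1) 2]; ac_rfl
    | succ j ih =>
      refine ⟨fun h => by simpa [add_assoc] using ih.2 (by omega), fun hk => ?_⟩
      have a0 := ih.1 (by omega)
      have a1 := ih.2 (by omega)
      obtain ⟨c, hc, hc1, -, -⟩ := hrec (k + 2 + j) (by omega)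
      have hbig : μ < r (k + 2 + j + 1) * δ := by
        have h0 : δ ^ (k + 2 + j) < μ := lt_of_le_of_lt (pow_anti hδ1 (by omega)) hlt
        have h1 : μ * δ ^ (k + 2 + j) < (r (k + 2 + j + 1) * δ) * δ ^ (k + 2 + j) := by
          calc μ * δ ^ (k + 2 + j) < μ * μ := mul_lt_mul_of_pos_left h0 hμpos
            _ = r (k + 2 + j + 1) * δ ^ (k + 2 + j + 1) := by rw [a1, sq]
            _ = _ := by rw [pow_succ δ (k + 2 + j)]; ac_rfl
        exact lt_of_mul_lt_mul_right h1 zero_le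
      rw [hc1 hbig] at hc
      have h2 : (r (k + 2 + j + 2) * δ ^ (k + 2 + j + 2)) * μ ^ 2 = μ ^ 2 * μ ^ 2 := by
        calc (r (k + 2 + j + 2) * δ ^ (k + 2 + j + 2)) * μ ^ 2
            = (r (k + 2 + j + 2) * δ ^ (k + 2 + j + 2)) * (r (k + 2 + j) * δ ^ (k + 2 + j)) := by
              rw [a0]
          _ = (δ ^ 2 * r (k + 2 + j + 2) * r (k + 2 + j)) * (δ ^ (k + 2 + j) * δ ^ (k + 2 + j)) := by
              rw [pow_add δ (k + 2 + j) 2]; ac_rfl
          _ = (r (k + 2 + j + 1) * δ) ^ 2 * (δ ^ (k + 2 + j) * δ ^ (k + 2 + j)) := by rw [hc]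
          _ = (r (k + 2 + j + 1) * δ ^ (k + 2 + j + 1)) * (r (k + 2 + j + 1) * δ ^ (k + 2 + j + 1)) := by
              rw [pow_succ δ (k + 2 + j), sq]; ac_rfl
          _ = μ ^ 2 * μ ^ 2 := by rw [a1]
      exact mul_right_cancel₀ (pow_ne_zero 2 hμ0) h2
  obtain ⟨j, rfl⟩ : ∃ j, n = k + 2 + j := ⟨n - (k + 2), by omega⟩
  have := (ph2 j).1 le_rfl
  rw [rn] at this
  rw [← this, pow_succ']

end Fermat.Agent.S05
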