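import Mathlib
import Fermat.Agent.S05.Core
import Fermat.Agent.S05.NodeAlg
import Fermat.Agent.S05.Seq

set_option autoImplicit false

namespace Fermat.Agent.S05

variable {G : Type*} [AddCommGroup G] {K : Type*} [Field K]
  {Γ₀ : Type*} [LinearOrderedCommGroupWithZero Γ₀]

/-- multiplicative reduction with the node at `x = 0`, which is the `x`-coordinate of a
`2`-torsion point. -/
structure XData.Mult (D : XData G K) (v : Valuation K Γ₀) (β : K) : Prop where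
  b₆ : D.b₆ = 0
  b₄ : D.b₄ = 2 * β
  b₂ : v D.b₂ = 1
  β_s : v β < 1
  β_ne : β ≠ 0

variable {D : XData G K} {v : Valuation K Γ₀} {β : K}

theorem XData.Mult.b₈ (hM : D.Mult v β) (h2 : v (2 : K) = 1) : D.b₈ = - β ^ 2 := by
  have h4 : (4 : K) ≠ 0 := ne_zero_of_u (u_four h2)
  apply mul_left_cancel₀ h4
  rw [D.b_rel, hM.b₆, hM.b₄]; ring

theorem XData.Mult.sum (hM : D.Mult v β) {P Q : G} (hP : P ≠ 0) (hQ : Q ≠ 0)
    (h : D.x P ≠ D.x Q) :
    (D.x P - D.x Q) ^ 2 * (D.x (P + Q) + D.x (P - Q)) =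
      2 * (D.x P * D.x Q) * (D.x P + D.x Q) + D.b₂ * (D.x P * D.x Q)
        + 2 * β * (D.x P + D.x Q) := by
  rw [D.sum P Q hP hQ h, hM.b₆, hM.b₄]; ring

theorem XData.Mult.prod (hM : D.Mult v β) (h2 : v (2 : K) = 1) {P Q : G} (hP : P ≠ 0)
    (hQ : Q ≠ 0) (h : D.x P ≠ D.x Q) :
    (D.x P - D.x Q) ^ 2 * (D.x (P + Q) * D.x (P - Q)) = (D.x P * D.x Q - β) ^ 2 := by
  rw [D.prod P Q hP hQ h, hM.b₆, hM.b₄, hM.b₈ h2]; ring

theorem XData.Mult.ψ_sq (hM : D.Mult v β) {P : G} (hP : P ≠ 0) :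
    D.ψ P ^ 2 = 4 * D.x P ^ 3 + D.b₂ * D.x P ^ 2 + 4 * β * D.x P := by
  rw [D.ψ_sq P hP, hM.b₆, hM.b₄]; ring

theorem XData.Mult.dup (hM : D.Mult v β) (h2 : v (2 : K) = 1) {P : G} (hP : P ≠ 0)
    (hψ : D.ψ P ≠ 0) : D.ψ P ^ 2 * D.x (2 • P) = (D.x P ^ 2 - β) ^ 2 := by
  rw [D.dup P hP hψ, hM.b₆, hM.b₄, hM.b₈ h2]; ring

/-- node-reducing points. -/
def XData.IsN (D : XData G K) (v : Valuation K Γ₀) (P : G) : Prop := P ≠ 0 ∧ v (D.x P) < 1

theorem N_closure (hM : D.Mult v β) (h2 : v (2 : K) = 1) {U S : G} (hU : D.IsN v U)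
    (hS : S ≠ 0) (hxS : 1 ≤ v (D.x S)) : D.IsN v (U + S) ∧ D.IsN v (U - S) := by
  have hne : D.x U ≠ D.x S := by
    intro h
    rw [← h] at hxS
    exact absurd hU.2 (not_lt.mpr hxS)
  have := N_closure_alg hM.b₂.le hM.β_s (hM.sum hU.1 hS hne) (hM.prod h2 hU.1 hS hne) hU.2 hxS
  exact ⟨⟨add_ne_zero_of_x_ne hne, this.1⟩, ⟨sub_ne_zero_of_x_ne hne, this.2⟩⟩

theorem notN_add (hM : D.Mult v β) (h2 : v (2 : K) = 1) {S S' : G} (hS : ¬ D.IsN v S)
    (hS' : ¬ D.IsN v S') : ¬ D.IsN v (S + S') := by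
  intro h
  by_cases h0 : S' = 0
  · rw [h0, add_zero] at h; exact hS h
  · have hx : 1 ≤ v (D.x S') := by
      by_contra hc
      exact hS' ⟨h0, not_le.mp hc⟩
    have := (N_closure hM h2 h h0 hx).2
    rw [add_sub_cancel_right] at this
    exact hS this

theorem notN_nsmul (hM : D.Mult v β) (h2 : v (2 : K) = 1) {S : G} (hS : ¬ D.IsN v S) (k : ℕ) :
    ¬ D.IsN v (k • S) := by
  induction k with
  | zero => rw [zero_nsmul]; exact fun h => h.1 rfl
  | succ k ih => rw [succ_nsmul]; exact notN_add hM h2 ih hS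

theorem exists_nsmul_nsmul_eq {p : ℕ} (hp : p.Prime) {P : G} (hpP : p • P = 0) {k : ℕ}
    (hk : ¬ p ∣ k) : ∃ j, ¬ p ∣ j ∧ j • (k • P) = P := by
  have hc : Nat.Coprime k p := ((Nat.Prime.coprime_iff_not_dvd hp).mpr hk).symm
  obtain ⟨m, -, hm⟩ := Nat.exists_mul_mod_eq_one_of_coprime hc hp.one_lt
  refine ⟨m, ?_, ?_⟩
  · intro hd
    have : k * m % p = 0 := Nat.mod_eq_zero_of_dvd (Dvd.dvd.mul_left hd k)
    omega
  · rw [← mul_nsmul, ← Nat.div_add_mod (k * m) p, hm, add_nsmul, mul_nsmul, hpP, one_nsmul,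
      smul_zero, zero_add]

theorem N_multiples (hM : D.Mult v β) (h2 : v (2 : K) = 1) {p : ℕ} (hp : p.Prime) {P : G}
    (hP : D.IsN v P) (hpP : p • P = 0) {k : ℕ} (hk : ¬ p ∣ k) : D.IsN v (k • P) := by
  by_contra h
  obtain ⟨j, -, hj⟩ := exists_nsmul_nsmul_eq hp hpP hk
  have := notN_nsmul hM h2 h j
  rw [hj] at this
  exact this hP

theorem N_range (hM : D.Mult v β) (h2 : v (2 : K) = 1) {p : ℕ} (hp : p.Prime) (hp2 : p ≠ 2)
    {S T : G} (hS : D.IsN v S) (hpS : p • S = 0) (hT : T ≠ 0) (hxT : D.x T = 0) :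
    v β < v (D.x S) := by
  by_contra hcon
  rw [not_lt] at hcon
  have h20 : (2 : K) ≠ 0 := ne_zero_of_u h2
  have hψT : D.ψ T = 0 := by
    have := hM.ψ_sq hT
    rw [hxT] at this
    simpa using this
  have h2T : 2 • T = 0 := (D.two T hT).mpr hψT
  have hTneg : -T = T := by
    rw [neg_eq_iff_add_eq_zero, ← two_nsmul]; exact h2T
  have hp3 : ¬ p ∣ 2 := fun hd => by
    have := Nat.le_of_dvd (by omega) hd
    have := hp.two_le
    omega
  have h2S : 2 • S ≠ 0 := nsmul_ne_zero_of_prime hp hS.1 hpS hp3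
  have hxS : D.x S ≠ 0 := by
    intro h0
    rcases D.eq_or S T hS.1 hT (by rw [h0, hxT]) with h | h
    · exact h2S (by rw [h]; exact h2T)
    · exact h2S (by rw [h, hTneg]; exact h2T)
  have hne : D.x S ≠ D.x T := by rw [hxT]; exact hxS
  have hs := hM.sum hS.1 hT hne
  have hST : S - T = S + T := by rw [sub_eq_add_neg, hTneg]
  rw [hST, hxT] at hs
  have hx : D.x S * D.x (S + T) = β := by
    have h3 : (2 * D.x S) ≠ 0 := mul_ne_zero h20 hxS
    apply mul_left_cancel₀ h3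
    linear_combination hs
  have hbig : 1 ≤ v (D.x (S + T)) := by
    have h4 := congrArg v hx
    rw [map_mul] at h4
    by_contra hc
    rw [not_le] at hc
    have hpos : 0 < v (D.x S) := zero_lt_iff.mpr ((v.ne_zero_iff).mpr hxS)
    have : v (D.x S) * v (D.x (S + T)) < v (D.x S) * 1 := mul_lt_mul_of_pos_left hc hpos
    rw [h4, mul_one] at this
    exact absurd this (not_lt.mpr hcon)
  have hnN : ¬ D.IsN v (S + T) := fun h => absurd h.2 (not_lt.mpr hbig)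
  have := notN_nsmul hM h2 hnN p
  obtain ⟨h, rfl⟩ : ∃ h, p = 2 * h + 1 := by
    rcases hp.eq_two_or_odd' with h | h
    · exact absurd h hp2
    · exact h
  rw [smul_add, hpS, zero_add, add_nsmul, mul_comm, mul_nsmul', h2T, smul_zero, zero_add,
    one_nsmul] at this
  exact this ⟨hT, by rw [hxT, map_zero]; exact zero_lt_one⟩

theorem nsmul_mod {p : ℕ} {P : G} (hpP : p • P = 0) (m : ℕ) : m • P = (m % p) • P := by
  conv_lhs => rw [← Nat.div_add_mod m p, add_nsmul, mul_nsmul, hpP, smul_zero, zero_add]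

theorem v_sub_cases (a b : K) :
    (v b < v a → v (a - b) = v a) ∧ (v a < v b → v (a - b) = v b) ∧
      (v a = v b → v (a - b) ≤ v b) :=
  ⟨fun h => v.map_sub_eq_of_lt_left h, fun h => v.map_sub_eq_of_lt_right h,
    fun h => v.map_sub_le h.le le_rfl⟩

theorem pow_eq_of_max (hI : D.Integral v) (hM : D.Mult v β) {p : ℕ} (hp : p.Prime)
    (hp2 : p ≠ 2) {P₀ T : G} (hP₀ : D.IsN v P₀) (hpP₀ : p • P₀ = 0) (hT : T ≠ 0)
    (hxT : D.x T = 0) (hmax : ∀ j, ¬ p ∣ j → v (D.x (j • P₀)) ≤ v (D.x P₀)) :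
    v (D.x P₀) ^ p = v β ^ 2 := by
  have h2 := hI.two
  have hp3 : 3 ≤ p := by
    have := hp.two_le
    omega
  have hnd : ∀ k, 1 ≤ k → k < p → ¬ p ∣ k := fun k h1 h2 hd => by
    have := Nat.le_of_dvd (by omega) hd
    omega
  have hN : ∀ k, 1 ≤ k → k < p → D.IsN v (k • P₀) := fun k h1 h2' =>
    N_multiples hM h2 hp hP₀ hpP₀ (hnd k h1 h2')
  have hpk : ∀ k : ℕ, p • (k • P₀) = 0 := fun k => by rw [smul_comm, hpP₀, smul_zero]
  have hrange : ∀ k, 1 ≤ k → k < p → v β < v (D.x (k • P₀)) := fun k h1 h2' =>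
    N_range hM h2 hp hp2 (hN k h1 h2') (hpk k) hT hxT
  have hr0 : v β < v (D.x P₀) := by simpa using hrange 1 le_rfl (by omega)
  have key := seq_lemma (δ := v (D.x P₀)) (μ := v β) (n := p - 1)
    (fun k => if k = 0 then 1 else v (D.x (k • P₀))) ((v.ne_zero_iff).mpr hM.β_ne) hr0 hP₀.2
    (by omega) (by simp) (by simp) ?_ ?_ ?_
  · rw [← key]; congr 1; omega
  · have h1 : p - 1 ≠ 0 := by omega
    simp only [h1, if_false]
    have : (p - 1) • P₀ = - P₀ := by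
      rw [eq_neg_iff_add_eq_zero]
      nth_rewrite 2 [← one_nsmul P₀]
      rw [← add_nsmul, ← hpP₀]
      congr 1; omega
    rw [this, D.x_neg]
  · intro k h1 hk
    have h0 : k ≠ 0 := by omega
    simp only [h0, if_false]
    exact hrange k h1 (by omega)
  · intro k hk
    refine ⟨v (D.x ((k + 1) • P₀) * D.x P₀ - β), ?_, ?_⟩
    · have hk2 : k + 2 ≠ 0 := by omega
      simp only [hk2, if_false]
      by_cases hk0 : k = 0
      · subst hk0
        simp only [if_true, mul_one, zero_add, one_nsmul]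
        have hψ0 : D.ψ P₀ ≠ 0 := by
          intro h0
          exact nsmul_ne_zero_of_prime hp hP₀.1 hpP₀ (hnd 2 (by omega) (by omega))
            ((D.two P₀ hP₀.1).mpr h0)
        exact dup_node_alg hM.b₂ (hM.ψ_sq hP₀.1) (hM.dup h2 hP₀.1 hψ0) hP₀.2 hr0
      · simp only [hk0, if_false]
        have hS := hN (k + 1) (by omega) (by omega)
        have hne : D.x ((k + 1) • P₀) ≠ D.x P₀ :=
          x_ne_of_prime hp hP₀.1 hpP₀ (by omega) (by omega)
        have e1 : (k + 1) • P₀ + P₀ = (k + 2) • P₀ := by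
          rw [show k + 2 = (k + 1) + 1 by ring, add_nsmul _ (k + 1) 1, one_nsmul]
        have e2 : (k + 1) • P₀ - P₀ = k • P₀ := by
          rw [add_nsmul _ k 1, one_nsmul, add_sub_cancel_right]
        have hs := hM.sum hS.1 hP₀.1 hne
        have hpr := hM.prod h2 hS.1 hP₀.1 hne
        rw [e1, e2] at hs hpr
        have hlt : v (D.x ((k + 1) • P₀)) < v (D.x P₀) := by
          refine lt_of_le_of_ne (hmax _ (hnd _ (by omega) (by omega))) ?_
          intro heq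
          exact claim1_alg hM.b₂ hs hS.2 (hrange _ (by omega) (by omega)) heq.symm
            (hN (k + 2) (by omega) (by omega)).2 (hN k (by omega) (by omega)).2
        exact rec_alg hpr hlt
    · have hk1 : k + 1 ≠ 0 := by omega
      simp only [hk1, if_false]
      have := v_sub_cases (v := v) (D.x ((k + 1) • P₀) * D.x P₀) β
      rw [map_mul] at this
      exact this

/-- the final step for a point whose `x`-coordinate is a unit times an invariant element. -/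
theorem fixed_of_N5 (hI : D.Integral v) (hM : D.Mult v β) {p : ℕ} (hp : p.Prime)
    (hp2 : p ≠ 2) (hvp : v (p : K) = 1) {s : G →+ G} {σ : K →+* K} (hA : D.Inertial v s σ)
    {P₀ : G} (hP₀ : D.IsN v P₀) (hpP₀ : p • P₀ = 0) (hr0 : v β < v (D.x P₀))
    {c₀ : K} (hc₀σ : σ c₀ = c₀) (hc₀ : v (D.x P₀) = v c₀) : s P₀ = P₀ := by
  have h2 := hI.two
  have hx0 : D.x P₀ ≠ 0 := by
    intro h
    rw [h, map_zero] at hr0
    exact absurd hr0 (not_lt.mpr zero_le)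
  have hc0 : c₀ ≠ 0 := by
    intro h
    rw [h, map_zero] at hc₀
    exact hx0 ((v.zero_iff).mp hc₀)
  have hsP : s P₀ ≠ 0 := hA.s_ne P₀ hP₀.1
  have hpsP : p • s P₀ = 0 := by rw [← map_nsmul, hpP₀, map_zero]
  by_cases hx : D.x (s P₀) = D.x P₀
  · rcases D.eq_or _ _ hsP hP₀.1 hx with h | h
    · exact h
    · exfalso
      have h1 : σ (D.ψ P₀) = - D.ψ P₀ := by rw [← hA.ψ_s P₀ hP₀.1, h, D.ψ_neg]
      have h1' : σ (D.x P₀) = D.x P₀ := by rw [← hA.x_s P₀ hP₀.1, hx]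
      have hτ := tau_unit_alg hM.b₂ (hM.ψ_sq hP₀.1) hP₀.2 hr0
      have h3 := hA.inert _ hτ.le
      rw [map_div₀, h1, h1'] at h3
      have : - D.ψ P₀ / D.x P₀ - D.ψ P₀ / D.x P₀ = - (2 * (D.ψ P₀ / D.x P₀)) := by ring
      rw [this, Valuation.map_neg, map_mul, h2, one_mul, hτ] at h3
      exact lt_irrefl _ h3
  · exfalso
    have hu : v (D.x P₀ / c₀) = 1 := u_div_of_eq hc0 hc₀
    have hu0 := ne_zero_of_u hu
    have h3 := hA.inert _ hu.le
    obtain ⟨ε, hε, hεs⟩ : ∃ ε, D.x (s P₀) = D.x P₀ * (1 + ε) ∧ v ε < 1 := by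
      refine ⟨(σ (D.x P₀ / c₀) - D.x P₀ / c₀) / (D.x P₀ / c₀), ?_, ?_⟩
      · rw [hA.x_s P₀ hP₀.1, map_div₀, hc₀σ]
        field_simp
        ring
      · rw [map_div₀, hu, div_one]; exact h3
    have hx' : D.x P₀ ≠ D.x (s P₀) := fun h => hx h.symm
    have hs := hM.sum hP₀.1 hsP hx'
    rw [hε] at hs
    rcases N5_alg hM.b₂ hs hP₀.2 hr0 hεs with h | h
    · exact no_torsion_E1 hI hp hp2 hvp (add_ne_zero_of_x_ne hx') h
        (by rw [smul_add, hpP₀, hpsP, add_zero])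
    · exact no_torsion_E1 hI hp hp2 hvp (sub_ne_zero_of_x_ne hx') h
        (by rw [smul_sub, hpP₀, hpsP, sub_zero])

/-- **Multiplicative case.** -/
theorem fixed_of_mult (hI : D.Integral v) (hM : D.Mult v β) {p : ℕ} (hp : p.Prime)
    (hp2 : p ≠ 2) (hvp : v (p : K) = 1) {s : G →+ G} {σ : K →+* K} (hA : D.Inertial v s σ)
    {T : G} (hT : T ≠ 0) (hxT : D.x T = 0) {c₀ : K} (hc₀σ : σ c₀ = c₀)
    (hc₀ : v c₀ ^ p = v β ^ 2) {P : G} (hpP : p • P = 0) : s P = P := by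
  have h2 := hI.two
  have hp3 : 3 ≤ p := by
    have := hp.two_le
    omega
  by_cases hP : P = 0
  · rw [hP, map_zero]
  have hxI : v (D.x P) ≤ 1 := by
    by_contra h
    exact no_torsion_E1 hI hp hp2 hvp hP (not_le.mp h) hpP
  by_cases hxs : v (D.x P) < 1
  · have hN : D.IsN v P := ⟨hP, hxs⟩
    obtain ⟨k, hk, hkmax⟩ := Finset.exists_max_image (Finset.Icc 1 (p - 1))
      (fun k => v (D.x (k • P))) ⟨1, by simp; omega⟩
    rw [Finset.mem_Icc] at hk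
    have hkd : ¬ p ∣ k := fun hd => by
      have := Nat.le_of_dvd (by omega) hd
      omega
    have hP₀ : D.IsN v (k • P) := N_multiples hM h2 hp hN hpP hkd
    have hpP₀ : p • (k • P) = 0 := by rw [smul_comm, hpP, smul_zero]
    have hmax : ∀ j, ¬ p ∣ j → v (D.x (j • (k • P))) ≤ v (D.x (k • P)) := by
      intro j hj
      rw [← mul_nsmul', nsmul_mod hpP (j * k)]
      apply hkmax
      rw [Finset.mem_Icc]
      have h1 : ¬ p ∣ j * k := fun hd => (hp.dvd_mul.mp hd).elim hj hkd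
      have h3 : (j * k) % p ≠ 0 := fun h0 => h1 (Nat.dvd_of_mod_eq_zero h0)
      have h4 : (j * k) % p < p := Nat.mod_lt _ (by omega)
      omega
    have hpow := pow_eq_of_max hI hM hp hp2 hP₀ hpP₀ hT hxT hmax
    rw [← hc₀] at hpow
    have hv : v (D.x (k • P)) = v c₀ := (pow_left_inj₀ zero_le zero_le (by omega)).mp hpow
    have hfix := fixed_of_N5 hI hM hp hp2 hvp hA hP₀ hpP₀
      (N_range hM h2 hp hp2 hP₀ hpP₀ hT hxT) hc₀σ hv
    obtain ⟨j, -, hj⟩ := exists_nsmul_nsmul_eq hp hpP hkd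
    rw [← hj, map_nsmul, hfix]
  · have hu := u_of_i_of_not_s hxI hxs
    apply fixed_of_NS hI hp hp2 hvp hA hP hpP hxI
    intro hcon
    have h1 : D.x P ^ 4 - D.b₄ * D.x P ^ 2 - 2 * D.b₆ * D.x P - D.b₈ = (D.x P ^ 2 - β) ^ 2 := by
      rw [hM.b₆, hM.b₄, hM.b₈ h2]; ring
    have h3 : v ((D.x P ^ 2 - β) ^ 2) = 1 := u_pow (u_sub_s (u_pow hu 2) hM.β_s) 2
    rw [h1, h3] at hcon
    exact lt_irrefl _ hcon.1

/-- **Good reduction case.** -/
theorem fixed_of_good (hI : D.Integral v)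
    (hΔ : v (-D.b₂ ^ 2 * D.b₈ - 8 * D.b₄ ^ 3 - 27 * D.b₆ ^ 2 + 9 * D.b₂ * D.b₄ * D.b₆) = 1)
    {p : ℕ} (hp : p.Prime)
    (hp2 : p ≠ 2) (hvp : v (p : K) = 1) {s : G →+ G} {σ : K →+* K} (hA : D.Inertial v s σ)
    {P : G} (hpP : p • P = 0) : s P = P := by
  by_cases hP : P = 0
  · rw [hP, map_zero]
  have hxI : v (D.x P) ≤ 1 := by
    by_contra h
    exact no_torsion_E1 hI hp hp2 hvp hP (not_le.mp h) hpP
  apply fixed_of_NS hI hp hp2 hvp hA hP hpP hxI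
  rintro ⟨h1, h2⟩
  obtain ⟨hb₂, hb₄, hb₆, hb₈, -⟩ := hI
  have key : -D.b₂ ^ 2 * D.b₈ - 8 * D.b₄ ^ 3 - 27 * D.b₆ ^ 2 + 9 * D.b₂ * D.b₄ * D.b₆ =
      (-48 * D.x P ^ 2 - 8 * D.b₂ * D.x P + D.b₂ ^ 2 - 32 * D.b₄) *
        (D.x P ^ 4 - D.b₄ * D.x P ^ 2 - 2 * D.b₆ * D.x P - D.b₈) +
      (12 * D.x P ^ 3 - D.b₂ * D.x P ^ 2 - 10 * D.b₄ * D.x P + D.b₂ * D.b₄ - 27 * D.b₆) *
        (4 * D.x P ^ 3 + D.b₂ * D.x P ^ 2 + 2 * D.b₄ * D.x P + D.b₆) := by
    linear_combination (-(12 * D.x P ^ 2 + 2 * D.b₂ * D.x P + 8 * D.b₄)) * D.b_rel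
  have : v (-D.b₂ ^ 2 * D.b₈ - 8 * D.b₄ ^ 3 - 27 * D.b₆ ^ 2 + 9 * D.b₂ * D.b₄ * D.b₆) < 1 := by
    rw [key]
    refine s_add (i_mul_s ?_ h1) (i_mul_s ?_ h2)
    · vsm
    · vsm
  rw [hΔ] at this
  exact lt_irrefl _ this

end Fermat.Agent.S05
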