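import Mathlib

set_option autoImplicit false
set_option linter.unusedSectionVars false

namespace Fermat.Agent.S05

open WeierstrassCurve WeierstrassCurve.Affine

variable {F : Type*} [Field F] [DecidableEq F] {W : Affine F}

/-- the `x`-coordinate, junk value `0` at the origin. -/
def px : W.Point → F
  | .zero => 0
  | .some x _ _ => x

/-- `2y + a₁x + a₃`, junk value `0` at the origin. -/
def ppsi : W.Point → F
  | .zero => 0
  | .some x y _ => 2 * y + W.a₁ * x + W.a₃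

@[simp] lemma px_zero : px (0 : W.Point) = 0 := rfl
@[simp] lemma ppsi_zero : ppsi (0 : W.Point) = 0 := rfl
@[simp] lemma px_some {x y : F} (h : W.Nonsingular x y) : px (Point.some x y h) = x := rfl
@[simp] lemma ppsi_some {x y : F} (h : W.Nonsingular x y) :
    ppsi (Point.some x y h) = 2 * y + W.a₁ * x + W.a₃ := rfl

lemma px_neg (P : W.Point) : px (-P) = px P := by
  rcases P with _ | ⟨x, y, h⟩
  · rfl
  · rfl

lemma ppsi_neg (P : W.Point) : ppsi (-P) = - ppsi P := by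
  rcases P with _ | ⟨x, y, h⟩
  · simp [← Point.zero_def]
  · simp only [Point.neg_some, ppsi_some, Affine.negY]
    ring

lemma ppsi_sq (P : W.Point) (hP : P ≠ 0) :
    ppsi P ^ 2 = 4 * px P ^ 3 + W.b₂ * px P ^ 2 + 2 * W.b₄ * px P + W.b₆ := by
  rcases P with _ | ⟨x, y, h⟩
  · exact absurd rfl hP
  · have h1 := (W.equation_iff x y).mp h.1
    simp only [ppsi_some, px_some, WeierstrassCurve.b₂, WeierstrassCurve.b₄, WeierstrassCurve.b₆]
    linear_combination 4 * h1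

lemma eq_or_eq_neg_of_px_eq {P Q : W.Point} (hP : P ≠ 0) (hQ : Q ≠ 0) (h : px P = px Q) :
    P = Q ∨ P = -Q := by
  rcases P with _ | ⟨x₁, y₁, h₁⟩
  · exact absurd rfl hP
  rcases Q with _ | ⟨x₂, y₂, h₂⟩
  · exact absurd rfl hQ
  exact Point.X_eq_iff.mp h

lemma px_add_of_ne {x₁ y₁ x₂ y₂ : F} (h₁ : W.Nonsingular x₁ y₁) (h₂ : W.Nonsingular x₂ y₂)
    (hx : x₁ ≠ x₂) :
    px (Point.some x₁ y₁ h₁ + Point.some x₂ y₂ h₂) =
      ((y₁ - y₂) / (x₁ - x₂)) ^ 2 + W.a₁ * ((y₁ - y₂) / (x₁ - x₂)) - W.a₂ - x₁ - x₂ := by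
  rw [Point.add_of_X_ne hx, px_some, Affine.addX, Affine.slope_of_X_ne hx]

theorem px_sum {P Q : W.Point} (hP : P ≠ 0) (hQ : Q ≠ 0) (h : px P ≠ px Q) :
    (px P - px Q) ^ 2 * (px (P + Q) + px (P - Q)) =
      2 * (px P * px Q) * (px P + px Q) + W.b₂ * (px P * px Q) + W.b₄ * (px P + px Q) + W.b₆ := by
  rcases P with _ | ⟨x₁, y₁, h₁⟩
  · exact absurd rfl hP
  rcases Q with _ | ⟨x₂, y₂, h₂⟩
  · exact absurd rfl hQ
  simp only [px_some] at h
  have e1 := (W.equation_iff x₁ y₁).mp h₁.1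
  have e2 := (W.equation_iff x₂ y₂).mp h₂.1
  have hd : x₁ - x₂ ≠ 0 := sub_ne_zero.mpr h
  rw [sub_eq_add_neg (Point.some x₁ y₁ h₁), Point.neg_some, px_add_of_ne _ _ h,
    px_add_of_ne _ _ h]
  simp only [px_some, Affine.negY, WeierstrassCurve.b₂, WeierstrassCurve.b₄, WeierstrassCurve.b₆]
  field_simp
  linear_combination 2 * e1 + 2 * e2

theorem px_prod {P Q : W.Point} (hP : P ≠ 0) (hQ : Q ≠ 0) (h : px P ≠ px Q) :
    (px P - px Q) ^ 2 * (px (P + Q) * px (P - Q)) =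
      (px P * px Q) ^ 2 - W.b₄ * (px P * px Q) - W.b₆ * (px P + px Q) - W.b₈ := by
  rcases P with _ | ⟨x₁, y₁, h₁⟩
  · exact absurd rfl hP
  rcases Q with _ | ⟨x₂, y₂, h₂⟩
  · exact absurd rfl hQ
  simp only [px_some] at h
  have e1 := (W.equation_iff x₁ y₁).mp h₁.1
  have e2 := (W.equation_iff x₂ y₂).mp h₂.1
  have hd : x₁ - x₂ ≠ 0 := sub_ne_zero.mpr h
  rw [sub_eq_add_neg (Point.some x₁ y₁ h₁), Point.neg_some, px_add_of_ne _ _ h,
    px_add_of_ne _ _ h]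
  simp only [px_some, Affine.negY, WeierstrassCurve.b₂, WeierstrassCurve.b₄, WeierstrassCurve.b₆,
    WeierstrassCurve.b₈]
  have key : ((y₁ - y₂)^2 + W.a₁ * (x₁ - x₂) * (y₁ - y₂) - (W.a₂ + x₁ + x₂) * (x₁ - x₂)^2) *
      ((y₁ + y₂ + W.a₁ * x₂ + W.a₃)^2 + W.a₁ * (x₁ - x₂) * (y₁ + y₂ + W.a₁ * x₂ + W.a₃)
        - (W.a₂ + x₁ + x₂) * (x₁ - x₂)^2)
      = (x₁ - x₂)^2 * ((x₁ * x₂) ^ 2 - (2 * W.a₄ + W.a₁ * W.a₃) * (x₁ * x₂)
        - (W.a₃ ^ 2 + 4 * W.a₆) * (x₁ + x₂)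
        - (W.a₁ ^ 2 * W.a₆ + 4 * W.a₂ * W.a₆ - W.a₁ * W.a₃ * W.a₄ + W.a₂ * W.a₃ ^ 2 - W.a₄ ^ 2)) := by
    grind
  have hd2 : (x₁ - x₂) ^ 2 ≠ 0 := pow_ne_zero 2 hd
  apply mul_left_cancel₀ hd2
  rw [← key]
  field_simp
  ring

theorem two_nsmul_eq_zero_iff {P : W.Point} (hP : P ≠ 0) : 2 • P = 0 ↔ ppsi P = 0 := by
  rcases P with _ | ⟨x, y, h⟩
  · exact absurd rfl hP
  rw [two_nsmul, ppsi_some]
  constructor
  · intro h0
    by_contra hne
    have hy : y ≠ W.negY x y := by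
      intro hy
      apply hne
      simp only [Affine.negY] at hy
      linear_combination hy
    rw [Point.add_self_of_Y_ne hy] at h0
    exact Point.some_ne_zero _ h0
  · intro h0
    apply Point.add_self_of_Y_eq
    simp only [Affine.negY]
    linear_combination h0

theorem px_dup {P : W.Point} (hP : P ≠ 0) (hψ : ppsi P ≠ 0) :
    ppsi P ^ 2 * px (2 • P) =
      px P ^ 4 - W.b₄ * px P ^ 2 - 2 * W.b₆ * px P - W.b₈ := by
  rcases P with _ | ⟨x, y, h⟩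
  · exact absurd rfl hP
  rw [ppsi_some] at hψ
  have e1 := (W.equation_iff x y).mp h.1
  have hy : y ≠ W.negY x y := by
    intro hy
    apply hψ
    simp only [Affine.negY] at hy
    linear_combination hy
  have hy' : y - W.negY x y ≠ 0 := sub_ne_zero.mpr hy
  rw [two_nsmul, Point.add_self_of_Y_ne hy, px_some, ppsi_some, px_some, Affine.addX,
    Affine.slope_of_Y_ne rfl hy]
  have hy2 : y - W.negY x y = 2 * y + W.a₁ * x + W.a₃ := by
    simp only [Affine.negY]; ring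
  rw [hy2]
  simp only [WeierstrassCurve.b₂, WeierstrassCurve.b₄, WeierstrassCurve.b₆,
    WeierstrassCurve.b₈]
  field_simp
  grind

end Fermat.Agent.S05
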