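import Mathlib
import Fermat.Prelude.Def_FLTPrelim_GaloisRep
import Fermat.Prelude.Def_FLTPrelim_Ramification
import Fermat.Agent.S05.Node
import Fermat.Agent.S05.XOnly
import Fermat.Agent.S05.Inertia

set_option autoImplicit false

namespace Fermat.Agent.S05

open WeierstrassCurve WeierstrassCurve.Affine

section
variable {F : Type*} [Field F] [DecidableEq F]

/-- the `x`-only data of a Weierstrass curve over a field. -/
def xdata (W : Affine F) : XData W.Point F where
  x := px
  ψ := ppsi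
  b₂ := W.b₂
  b₄ := W.b₄
  b₆ := W.b₆
  b₈ := W.b₈
  b_rel := W.b_relation
  x_neg := px_neg
  ψ_neg := ppsi_neg
  ψ_sq := ppsi_sq
  eq_or _ _ := eq_or_eq_neg_of_px_eq
  sum _ _ := px_sum
  prod _ _ := px_prod
  two _ := two_nsmul_eq_zero_iff
  dup _ := px_dup

end

variable {k K : Type*} [Field k] [Field K] [DecidableEq K] [Algebra k K]

theorem inertial_of_mem (W' : WeierstrassCurve k) (A : ValuationSubring K) {σ : K ≃ₐ[k] K}
    (hσ : σ ∈ A.inertiaSubgroupIn k) :
    (xdata (W'⁄K)).Inertial A.valuation (Point.map (W' := W') σ.toAlgHom) (σ : K →+* K) where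
  s_ne P hP := by
    rcases P with _ | ⟨x, y, h⟩
    · exact absurd rfl hP
    · exact Point.some_ne_zero _
  x_s P hP := by
    rcases P with _ | ⟨x, y, h⟩
    · exact absurd rfl hP
    · rfl
  ψ_s P hP := by
    rcases P with _ | ⟨x, y, h⟩
    · exact absurd rfl hP
    · change 2 * σ y + (W'⁄K).a₁ * σ x + (W'⁄K).a₃ = σ (2 * y + (W'⁄K).a₁ * x + (W'⁄K).a₃)
      have h1 : σ ((W'⁄K).a₁) = (W'⁄K).a₁ := σ.commutes _
      have h3 : σ ((W'⁄K).a₃) = (W'⁄K).a₃ := σ.commutes _
      rw [map_add, map_add, map_mul, map_mul, h1, h3, map_ofNat]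
  inert a ha := valuation_sub_lt_one_of_mem_inertia A hσ ha

theorem XData.Inertial.shift {G : Type*} [AddCommGroup G] {Γ₀ : Type*}
    [LinearOrderedCommGroupWithZero Γ₀] {D : XData G K} {v : Valuation K Γ₀} {s : G →+ G}
    {σ : K →+* K} (h : D.Inertial v s σ) {r : K} (hr : σ r = r) :
    (D.shift r).Inertial v s σ where
  s_ne := h.s_ne
  x_s P hP := by
    change D.x (s P) - r = σ (D.x P - r)
    rw [h.x_s P hP, map_sub, hr]
  ψ_s := h.ψ_s
  inert := h.inert

end Fermat.Agent.S05
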