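import Mathlib
import Fermat.Prelude.Def_FLTPrelim_FreyPackage
import Fermat.Agent.S05.Inst

set_option autoImplicit false
set_option linter.unusedSectionVars false

namespace Fermat.Agent.S05

open WeierstrassCurve WeierstrassCurve.Affine

section intval

variable {K : Type*} [Field K] {Γ₀ : Type*} [LinearOrderedCommGroupWithZero Γ₀]
  {v : Valuation K Γ₀}

theorem i_intCast (n : ℤ) : v (n : K) ≤ 1 := by
  rcases Int.eq_nat_or_neg n with ⟨m, rfl | rfl⟩
  · rw [Int.cast_natCast]; exact i_natCast m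
  · rw [Int.cast_neg, Int.cast_natCast, Valuation.map_neg]; exact i_natCast m

theorem s_intCast_of_dvd {q : ℕ} (hq : v (q : K) < 1) {n : ℤ} (h : (q : ℤ) ∣ n) :
    v (n : K) < 1 := by
  obtain ⟨m, rfl⟩ := h
  rw [Int.cast_mul, Int.cast_natCast]
  exact s_mul_i hq (i_intCast m)

theorem u_intCast_of_not_dvd {q : ℕ} (hqp : q.Prime) (hq : v (q : K) < 1) {n : ℤ}
    (h : ¬ (q : ℤ) ∣ n) : v (n : K) = 1 := by
  apply u_of_i_of_not_s (i_intCast n)
  intro hn
  have hc : IsCoprime (q : ℤ) n :=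
    (Prime.coprime_iff_not_dvd (Nat.prime_iff_prime_int.mp hqp)).mpr h
  obtain ⟨a, b, hab⟩ := hc
  have h1 : (a : K) * (q : K) + (b : K) * (n : K) = 1 := by exact_mod_cast congrArg (Int.cast : ℤ → K) hab
  have h2 : v ((a : K) * (q : K) + (b : K) * (n : K)) < 1 :=
    s_add (i_mul_s (i_intCast a) hq) (i_mul_s (i_intCast b) hn)
  rw [h1, map_one] at h2
  exact lt_irrefl _ h2

theorem u_natCast_of_not_dvd {q : ℕ} (hqp : q.Prime) (hq : v (q : K) < 1) {n : ℕ}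
    (h : ¬ q ∣ n) : v (n : K) = 1 := by
  have := u_intCast_of_not_dvd (v := v) hqp hq (n := (n : ℤ)) (by exact_mod_cast h)
  simpa using this

end intval

section frey

variable {K : Type*} [Field K] [Algebra ℚ K] (P : FreyPackage)

theorem frey_a₁ : (P.freyCurve⁄K).a₁ = 1 := by
  change algebraMap ℚ K 1 = 1
  exact map_one _

theorem frey_a₂ : (P.freyCurve⁄K).a₂ = ((P.b : K) ^ P.p - 1 - (P.a : K) ^ P.p) / 4 := by
  change algebraMap ℚ K (((P.b : ℚ) ^ P.p - 1 - (P.a : ℚ) ^ P.p) / 4) = _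
  simp only [map_div₀, map_sub, map_pow, map_intCast, map_one, map_ofNat]

theorem frey_a₃ : (P.freyCurve⁄K).a₃ = 0 := by
  change algebraMap ℚ K 0 = 0
  exact map_zero _

theorem frey_a₄ : (P.freyCurve⁄K).a₄ = -((P.a : K) ^ P.p) * ((P.b : K) ^ P.p) / 16 := by
  change algebraMap ℚ K (-((P.a : ℚ) ^ P.p) * ((P.b : ℚ) ^ P.p) / 16) = _
  simp only [map_div₀, map_mul, map_neg, map_pow, map_intCast, map_ofNat]

theorem frey_a₆ : (P.freyCurve⁄K).a₆ = 0 := by
  change algebraMap ℚ K 0 = 0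
  exact map_zero _

variable [CharZero K]

theorem frey_b₂ : (P.freyCurve⁄K).b₂ = (P.b : K) ^ P.p - (P.a : K) ^ P.p := by
  rw [WeierstrassCurve.b₂, frey_a₁, frey_a₂]; ring

theorem frey_b₄ : (P.freyCurve⁄K).b₄ = 2 * (-((P.a : K) ^ P.p) * ((P.b : K) ^ P.p) / 16) := by
  rw [WeierstrassCurve.b₄, frey_a₁, frey_a₃, frey_a₄]; ring

theorem frey_b₆ : (P.freyCurve⁄K).b₆ = 0 := by
  rw [WeierstrassCurve.b₆, frey_a₃, frey_a₆]; ring

theorem frey_b₈ : (P.freyCurve⁄K).b₈ = -(-((P.a : K) ^ P.p) * ((P.b : K) ^ P.p) / 16) ^ 2 := by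
  rw [WeierstrassCurve.b₈, frey_a₁, frey_a₃, frey_a₄, frey_a₆]; ring

theorem frey_flt : (P.a : K) ^ P.p + (P.b : K) ^ P.p = (P.c : K) ^ P.p := by
  exact_mod_cast congrArg (Int.cast : ℤ → K) P.hFLT

end frey

end Fermat.Agent.S05
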