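import Mathlib
import Fermat.Agent.S05.Frey

set_option autoImplicit false
set_option linter.unusedSectionVars false

namespace Fermat.Agent.S05

open WeierstrassCurve WeierstrassCurve.Affine

variable {K : Type*} [Field K] [DecidableEq K] [Algebra ℚ K] [CharZero K]
  {Γ₀ : Type*} [LinearOrderedCommGroupWithZero Γ₀] {v : Valuation K Γ₀}

theorem u_sixteen (h2 : v (2 : K) = 1) : v (16 : K) = 1 := by
  have : (16 : K) = 2 ^ 4 := by norm_num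
  rw [this]; exact u_pow h2 4

theorem v_div_sixteen (h2 : v (2 : K) = 1) (a : K) : v (a / 16) = v a := by
  rw [map_div₀, u_sixteen h2, div_one]

theorem v_div_four (h2 : v (2 : K) = 1) (a : K) : v (a / 4) = v a := by
  rw [map_div₀, u_four h2, div_one]

variable (P : FreyPackage)

theorem frey_integral (h2 : v (2 : K) = 1) : (xdata (P.freyCurve⁄K)).Integral v where
  b₂ := by
    change v (P.freyCurve⁄K).b₂ ≤ 1
    rw [frey_b₂]
    exact i_sub (i_pow (i_intCast _) _) (i_pow (i_intCast _) _)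
  b₄ := by
    change v (P.freyCurve⁄K).b₄ ≤ 1
    rw [frey_b₄, map_mul, h2, one_mul, v_div_sixteen h2]
    exact i_mul (i_neg (i_pow (i_intCast _) _)) (i_pow (i_intCast _) _)
  b₆ := by
    change v (P.freyCurve⁄K).b₆ ≤ 1
    rw [frey_b₆]; exact i_zero
  b₈ := by
    change v (P.freyCurve⁄K).b₈ ≤ 1
    rw [frey_b₈, Valuation.map_neg, map_pow, v_div_sixteen h2]
    exact pow_le_one' (i_mul (i_neg (i_pow (i_intCast _) _)) (i_pow (i_intCast _) _)) 2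
  two := h2

theorem frey_fixed_good (h2 : v (2 : K) = 1) (hvp : v (P.p : K) = 1)
    (ha : v (P.a : K) = 1) (hb : v (P.b : K) = 1) (hc : v (P.c : K) = 1)
    {s : (P.freyCurve⁄K).Point →+ (P.freyCurve⁄K).Point} {σ : K →+* K}
    (hIn : (xdata (P.freyCurve⁄K)).Inertial v s σ) {X : (P.freyCurve⁄K).Point}
    (hpX : P.p • X = 0) : s X = X := by
  have hp2 : P.p ≠ 2 := by have := P.hp5; omega
  refine fixed_of_good (frey_integral P h2) ?_ P.pp hp2 hvp hIn hpX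
  change v (-(P.freyCurve⁄K).b₂ ^ 2 * (P.freyCurve⁄K).b₈ - 8 * (P.freyCurve⁄K).b₄ ^ 3
    - 27 * (P.freyCurve⁄K).b₆ ^ 2
    + 9 * (P.freyCurve⁄K).b₂ * (P.freyCurve⁄K).b₄ * (P.freyCurve⁄K).b₆) = 1
  rw [frey_b₂, frey_b₄, frey_b₆, frey_b₈]
  have key : -((P.b : K) ^ P.p - (P.a : K) ^ P.p) ^ 2 * -(-(P.a : K) ^ P.p * (P.b : K) ^ P.p / 16) ^ 2
      - 8 * (2 * (-(P.a : K) ^ P.p * (P.b : K) ^ P.p / 16)) ^ 3 - 27 * 0 ^ 2
      + 9 * ((P.b : K) ^ P.p - (P.a : K) ^ P.p) * (2 * (-(P.a : K) ^ P.p * (P.b : K) ^ P.p / 16)) * 0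
      = ((P.a : K) ^ P.p * (P.b : K) ^ P.p * (P.c : K) ^ P.p / 16) ^ 2 := by
    rw [← frey_flt P]; ring
  rw [key, map_pow, v_div_sixteen h2, map_mul, map_mul, map_pow, map_pow, map_pow, ha, hb, hc]
  simp

theorem frey_fixed_ab (h2 : v (2 : K) = 1) (hvp : v (P.p : K) = 1)
    (hab : v ((P.a : K) * (P.b : K)) < 1) (hu : v ((P.b : K) ^ P.p - (P.a : K) ^ P.p) = 1)
    {s : (P.freyCurve⁄K).Point →+ (P.freyCurve⁄K).Point} {σ : K →+* K}
    (hIn : (xdata (P.freyCurve⁄K)).Inertial v s σ) {X : (P.freyCurve⁄K).Point}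
    (hpX : P.p • X = 0) : s X = X := by
  have hp2 : P.p ≠ 2 := by have := P.hp5; omega
  have ha0 : (P.a : K) ≠ 0 := Int.cast_ne_zero.mpr P.ha0
  have hb0 : (P.b : K) ≠ 0 := Int.cast_ne_zero.mpr P.hb0
  have hβv : v (-(P.a : K) ^ P.p * (P.b : K) ^ P.p / 16) = v ((P.a : K) * (P.b : K)) ^ P.p := by
    rw [v_div_sixteen h2, neg_mul, Valuation.map_neg, ← mul_pow, map_pow]
  have hM : (xdata (P.freyCurve⁄K)).Mult v (-(P.a : K) ^ P.p * (P.b : K) ^ P.p / 16) := by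
    refine ⟨frey_b₆ P, frey_b₄ P, ?_, ?_, ?_⟩
    · change v (P.freyCurve⁄K).b₂ = 1
      rw [frey_b₂]; exact hu
    · rw [hβv]
      exact pow_lt_one₀ zero_le hab P.hp0
    · have h16 : (16 : K) ≠ 0 := by norm_num
      exact div_ne_zero (mul_ne_zero (neg_ne_zero.mpr (pow_ne_zero _ ha0)) (pow_ne_zero _ hb0)) h16
  have hns : (P.freyCurve⁄K).Nonsingular 0 0 := by
    rw [Affine.nonsingular_zero]
    refine ⟨frey_a₆ P, Or.inr ?_⟩
    rw [frey_a₄]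
    exact hM.β_ne
  refine fixed_of_mult (frey_integral P h2) hM P.pp hp2 hvp hIn (T := Point.some 0 0 hns)
    (Point.some_ne_zero _) rfl (c₀ := (((P.a * P.b) ^ 2 : ℤ) : K)) (map_intCast σ _) ?_ hpX
  rw [hβv]
  push_cast
  rw [map_pow, ← pow_mul, ← pow_mul, mul_comm 2 P.p]

theorem frey_fixed_c (h2 : v (2 : K) = 1) (hvp : v (P.p : K) = 1)
    (ha : v (P.a : K) = 1) (hc : v (P.c : K) < 1)
    {s : (P.freyCurve⁄K).Point →+ (P.freyCurve⁄K).Point} {σ : K →+* K}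
    (hIn : (xdata (P.freyCurve⁄K)).Inertial v s σ) {X : (P.freyCurve⁄K).Point}
    (hpX : P.p • X = 0) : s X = X := by
  have hp2 : P.p ≠ 2 := by have := P.hp5; omega
  have ha0 : (P.a : K) ≠ 0 := Int.cast_ne_zero.mpr P.ha0
  have hc0 : (P.c : K) ≠ 0 := Int.cast_ne_zero.mpr P.hc0
  have h16 : (16 : K) ≠ 0 := by norm_num
  have hflt := frey_flt (K := K) P
  have hB : (P.b : K) ^ P.p = (P.c : K) ^ P.p - (P.a : K) ^ P.p := by rw [← hflt]; ring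
  have hAi : v ((P.a : K) ^ P.p) = 1 := u_pow ha _
  have hCs : v ((P.c : K) ^ P.p) < 1 := s_pow hc P.hp0
  have hri : v ((P.a : K) ^ P.p / 4) ≤ 1 := by rw [v_div_four h2]; exact hAi.le
  have hI := frey_integral (v := v) P h2
  have hβv : v ((P.a : K) ^ P.p * (P.c : K) ^ P.p / 16) = v ((P.a : K) * (P.c : K)) ^ P.p := by
    rw [v_div_sixteen h2, ← mul_pow, map_pow]
  have hσr : σ ((P.a : K) ^ P.p / 4) = (P.a : K) ^ P.p / 4 := by
    rw [map_div₀, map_pow, map_intCast, map_ofNat]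
  have e₂ : ((xdata (P.freyCurve⁄K)).shift ((P.a : K) ^ P.p / 4)).b₂ =
      (P.a : K) ^ P.p + (P.c : K) ^ P.p := by
    change (P.freyCurve⁄K).b₂ + 12 * ((P.a : K) ^ P.p / 4) = _
    rw [frey_b₂, hB]; ring
  have e₄ : ((xdata (P.freyCurve⁄K)).shift ((P.a : K) ^ P.p / 4)).b₄ =
      2 * ((P.a : K) ^ P.p * (P.c : K) ^ P.p / 16) := by
    change (P.freyCurve⁄K).b₄ + ((P.a : K) ^ P.p / 4) * (P.freyCurve⁄K).b₂
      + 6 * ((P.a : K) ^ P.p / 4) ^ 2 = _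
    rw [frey_b₂, frey_b₄, hB]; ring
  have e₆ : ((xdata (P.freyCurve⁄K)).shift ((P.a : K) ^ P.p / 4)).b₆ = 0 := by
    change (P.freyCurve⁄K).b₆ + 2 * ((P.a : K) ^ P.p / 4) * (P.freyCurve⁄K).b₄
      + ((P.a : K) ^ P.p / 4) ^ 2 * (P.freyCurve⁄K).b₂ + 4 * ((P.a : K) ^ P.p / 4) ^ 3 = _
    rw [frey_b₂, frey_b₄, frey_b₆, hB]; ring
  have hI' : ((xdata (P.freyCurve⁄K)).shift ((P.a : K) ^ P.p / 4)).Integral v := by
    obtain ⟨hb₂, hb₄, hb₆, hb₈, -⟩ := hI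
    refine ⟨?_, ?_, ?_, ?_, h2⟩
    · change v ((xdata (P.freyCurve⁄K)).b₂ + 12 * ((P.a : K) ^ P.p / 4)) ≤ 1
      vsm
    · change v ((xdata (P.freyCurve⁄K)).b₄ + ((P.a : K) ^ P.p / 4) * (xdata (P.freyCurve⁄K)).b₂
        + 6 * ((P.a : K) ^ P.p / 4) ^ 2) ≤ 1
      vsm
    · rw [e₆]; exact i_zero
    · change v ((xdata (P.freyCurve⁄K)).b₈ + 3 * ((P.a : K) ^ P.p / 4) * (xdata (P.freyCurve⁄K)).b₆
        + 3 * ((P.a : K) ^ P.p / 4) ^ 2 * (xdata (P.freyCurve⁄K)).b₄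
        + ((P.a : K) ^ P.p / 4) ^ 3 * (xdata (P.freyCurve⁄K)).b₂
        + 3 * ((P.a : K) ^ P.p / 4) ^ 4) ≤ 1
      vsm
  have hM : ((xdata (P.freyCurve⁄K)).shift ((P.a : K) ^ P.p / 4)).Mult v
      ((P.a : K) ^ P.p * (P.c : K) ^ P.p / 16) := by
    refine ⟨e₆, e₄, ?_, ?_, ?_⟩
    · rw [e₂]; exact u_add_s hAi hCs
    · rw [v_div_sixteen h2]; vsm
    · exact div_ne_zero (mul_ne_zero (pow_ne_zero _ ha0) (pow_ne_zero _ hc0)) h16
  have hns : (P.freyCurve⁄K).Nonsingular ((P.a : K) ^ P.p / 4) (-((P.a : K) ^ P.p / 8)) := by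
    rw [Affine.nonsingular_iff', Affine.equation_iff, frey_a₁, frey_a₂, frey_a₃, frey_a₄, frey_a₆]
    refine ⟨by ring, Or.inl ?_⟩
    have : 1 * -((P.a : K) ^ P.p / 8) - (3 * ((P.a : K) ^ P.p / 4) ^ 2
        + 2 * (((P.b : K) ^ P.p - 1 - (P.a : K) ^ P.p) / 4) * ((P.a : K) ^ P.p / 4)
        + -(P.a : K) ^ P.p * (P.b : K) ^ P.p / 16) = - ((P.a : K) ^ P.p * (P.c : K) ^ P.p / 16) := by
      rw [hB]; ring
    rw [this]
    exact neg_ne_zero.mpr hM.β_ne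
  refine fixed_of_mult hI' hM P.pp hp2 hvp (hIn.shift hσr) (T := Point.some _ _ hns)
    (Point.some_ne_zero _) ?_ (c₀ := (((P.a * P.c) ^ 2 : ℤ) : K)) (map_intCast σ _) ?_ hpX
  · change (P.a : K) ^ P.p / 4 - (P.a : K) ^ P.p / 4 = 0
    exact sub_self _
  · rw [hβv]
    push_cast
    rw [map_pow, ← pow_mul, ← pow_mul, mul_comm 2 P.p]

end Fermat.Agent.S05
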